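import Mathlib
import Fermat.Agent.TT.Unr
import Fermat.Agent.FF.Desc.Val

/-!
# PROGRAM MR (S40), E-side, leaf (ORD): integer orders of algebraic numbers at a place over `p`

Owner: helper10.  Namespace `Fermat.Agent.MR`, prefix `mreo`.

`A : ValuationSubring ℚ̄` over the prime `p`, `v = A.valuation`, `I = A.inertiaSubgroupIn ℚ`.

* `mreo_arch`   : every non-zero `y ∈ ℚ̄` has `v p ^ m ≤ v y` for some `m : ℕ` (archimedean);
* `mreo_W`      : an `I`-fixed non-zero element of `A` has `v w = v p ^ n`, `n : ℕ` (iterate (UNR));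
* `mreo_fixed`  : an `I`-fixed non-zero element of `ℚ̄` has `v y = v p ^ n`, `n : ℤ`;
* `MreOrd A p e y n` : `v y ^ e = v p ^ n`, with its calculus.
-/

set_option autoImplicit false
set_option linter.style.haveILetI false
set_option linter.unusedSectionVars false
set_option linter.unusedVariables false

noncomputable section

namespace Fermat.Agent.MR

open Fermat.Agent.FF Fermat.Agent.TT Fermat.Agent.S05

local notation "Qb" => AlgebraicClosure ℚ
local notation "GQ" => (AlgebraicClosure ℚ ≃ₐ[ℚ] AlgebraicClosure ℚ)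

variable {p : ℕ} (A : ValuationSubring Qb)

/-- `v p < 1` -/
theorem mreo_vp_lt (hA : A.LiesOverPrime p) : A.valuation (p : Qb) < 1 :=
  (ValuationSubring.mem_nonunits_iff (A := A)).mp hA

theorem mreo_vp_ne (hp : p.Prime) : A.valuation (p : Qb) ≠ 0 :=
  (A.valuation.ne_zero_iff).mpr (Nat.cast_ne_zero.mpr hp.ne_zero)

/-- archimedean property: every non-zero algebraic number has valuation `≥ v p ^ m`. -/
theorem mreo_arch (hp : p.Prime) (hA : A.LiesOverPrime p) {y : Qb} (hy : y ≠ 0) :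
    ∃ m : ℕ, A.valuation (p : Qb) ^ m ≤ A.valuation y := by
  obtain ⟨C, hC⟩ := ffds_exists_pow_mul_mem (A := A) hp hA y⁻¹
  refine ⟨C, ?_⟩
  have h1 := hC 1
  rw [AlgEquiv.one_apply, ← A.valuation_le_one_iff, map_mul, map_pow, map_inv₀] at h1
  have hvy : A.valuation y ≠ 0 := (A.valuation.ne_zero_iff).mpr hy
  have hpos : 0 < A.valuation y := zero_lt_iff.mpr hvy
  calc A.valuation (p : Qb) ^ C = A.valuation (p : Qb) ^ C * (A.valuation y)⁻¹ * A.valuation y := by
        rw [mul_assoc, inv_mul_cancel₀ hvy, mul_one]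
    _ ≤ 1 * A.valuation y := by gcongr
    _ = A.valuation y := one_mul _

/-- the powers of `v p` are strictly decreasing. -/
theorem mreo_pow_lt (hp : p.Prime) (hA : A.LiesOverPrime p) {m n : ℕ} (h : m < n) :
    A.valuation (p : Qb) ^ n < A.valuation (p : Qb) ^ m :=
  pow_lt_pow_right_of_lt_one₀ (zero_lt_iff.mpr (mreo_vp_ne A hp)) (mreo_vp_lt A hA) h

/-- an `I`-fixed non-zero element of `A` has valuation `v p ^ n`. -/
theorem mreo_W (hp : p.Prime) (hA : A.LiesOverPrime p) {w : Qb} (hw : w ∈ ffiwRing A)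
    (hw0 : w ≠ 0) : ∃ n : ℕ, A.valuation w = A.valuation (p : Qb) ^ n := by
  obtain ⟨m, hm⟩ := mreo_arch A hp hA hw0
  induction m generalizing w with
  | zero =>
    refine ⟨0, ?_⟩
    rw [pow_zero] at hm ⊢
    exact le_antisymm ((A.valuation_le_one_iff w).mpr hw.1) hm
  | succ m ih =>
    by_cases hu : w ∈ A.nonunits
    · obtain ⟨w', hw', rfl⟩ := ttun_unr hp A hA hw hu
      have hp0 : (p : Qb) ≠ 0 := Nat.cast_ne_zero.mpr hp.ne_zero
      have hw'0 : w' ≠ 0 := fun h => hw0 (by rw [h, mul_zero])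
      have hm' : A.valuation (p : Qb) ^ m ≤ A.valuation w' := by
        rw [map_mul, pow_succ'] at hm
        exact le_of_mul_le_mul_left hm (zero_lt_iff.mpr (mreo_vp_ne A hp))
      obtain ⟨n, hn⟩ := ih hw' hw'0 hm'
      exact ⟨n + 1, by rw [map_mul, hn, pow_succ']⟩
    · refine ⟨0, ?_⟩
      rw [pow_zero]
      rw [ValuationSubring.mem_nonunits_iff, not_lt] at hu
      exact le_antisymm ((A.valuation_le_one_iff w).mpr hw.1) hu

/-- an `I`-fixed non-zero element of `ℚ̄` has valuation `v p ^ n`, `n : ℤ`. -/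
theorem mreo_fixed (hp : p.Prime) (hA : A.LiesOverPrime p) {y : Qb} (hy0 : y ≠ 0)
    (hy : ∀ σ ∈ A.inertiaSubgroupIn ℚ, σ y = y) :
    ∃ n : ℤ, A.valuation y = A.valuation (p : Qb) ^ n := by
  rcases A.mem_or_inv_mem y with h | h
  · obtain ⟨n, hn⟩ := mreo_W A hp hA (w := y) ⟨h, hy⟩ hy0
    exact ⟨n, by rw [hn, zpow_natCast]⟩
  · have hinv : ∀ σ ∈ A.inertiaSubgroupIn ℚ, σ y⁻¹ = y⁻¹ := fun σ hσ => by
      rw [map_inv₀, hy σ hσ]
    obtain ⟨n, hn⟩ := mreo_W A hp hA (w := y⁻¹) ⟨h, hinv⟩ (inv_ne_zero hy0)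
    refine ⟨-n, ?_⟩
    rw [map_inv₀] at hn
    rw [zpow_neg, zpow_natCast, ← hn, inv_inv]

/-! ## the order relation -/

/-- `y` has order `n` for the exponent `e`: `v y ^ e = v p ^ n`. -/
def MreOrd (p : ℕ) (e : ℕ) (y : Qb) (n : ℤ) : Prop :=
  A.valuation y ^ e = A.valuation (p : Qb) ^ n

variable {A}

theorem MreOrd.ne_zero (hp : p.Prime) {e : ℕ} {y : Qb} {n : ℤ}
    (h : MreOrd A p e y n) (he : e ≠ 0) : y ≠ 0 := by
  rintro rfl
  unfold MreOrd at h
  rw [map_zero, zero_pow he] at h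
  exact zpow_ne_zero n (mreo_vp_ne A hp) h.symm

theorem MreOrd.mul {e : ℕ} {y y' : Qb} {n n' : ℤ} (hp : p.Prime)
    (h : MreOrd A p e y n) (h' : MreOrd A p e y' n') : MreOrd A p e (y * y') (n + n') := by
  unfold MreOrd at *
  rw [map_mul, mul_pow, h, h', zpow_add₀ (mreo_vp_ne A hp)]

theorem MreOrd.inv {e : ℕ} {y : Qb} {n : ℤ} (h : MreOrd A p e y n) : MreOrd A p e y⁻¹ (-n) := by
  unfold MreOrd at *
  rw [map_inv₀, inv_pow, h, zpow_neg]

theorem MreOrd.div {e : ℕ} {y y' : Qb} {n n' : ℤ} (hp : p.Prime)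
    (h : MreOrd A p e y n) (h' : MreOrd A p e y' n') : MreOrd A p e (y / y') (n - n') := by
  rw [div_eq_mul_inv, sub_eq_add_neg]
  exact h.mul hp h'.inv

theorem MreOrd.pow {e : ℕ} {y : Qb} {n : ℤ} (h : MreOrd A p e y n) (k : ℕ) :
    MreOrd A p e (y ^ k) (k * n) := by
  unfold MreOrd at *
  rw [map_pow, ← pow_mul, mul_comm k e, pow_mul, h, ← zpow_natCast, ← zpow_mul, mul_comm]

theorem mreo_ord_one {e : ℕ} : MreOrd A p e 1 0 := by
  unfold MreOrd
  rw [map_one, one_pow, zpow_zero]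

theorem mreo_ord_p {e : ℕ} : MreOrd A p e (p : Qb) e := by
  unfold MreOrd
  rw [zpow_natCast]

/-- `n ↦ v p ^ n` is strictly antitone. -/
theorem mreo_zpow_lt_iff (hp : p.Prime) (hA : A.LiesOverPrime p) {m n : ℤ} :
    A.valuation (p : Qb) ^ n < A.valuation (p : Qb) ^ m ↔ m < n := by
  have h0 : 0 < A.valuation (p : Qb) := zero_lt_iff.mpr (mreo_vp_ne A hp)
  have h1 := mreo_vp_lt A hA
  constructor
  · intro h
    by_contra hcon
    rw [not_lt] at hcon
    have : A.valuation (p : Qb) ^ m ≤ A.valuation (p : Qb) ^ n :=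
      zpow_le_zpow_right_of_le_one₀ h0 h1.le hcon
    exact absurd h (not_lt.mpr this)
  · intro h
    exact zpow_lt_zpow_right_of_lt_one₀ h0 h1 h

theorem mreo_zpow_le_iff (hp : p.Prime) (hA : A.LiesOverPrime p) {m n : ℤ} :
    A.valuation (p : Qb) ^ n ≤ A.valuation (p : Qb) ^ m ↔ m ≤ n := by
  rw [← not_lt, mreo_zpow_lt_iff hp hA, not_lt]

theorem mreo_zpow_inj (hp : p.Prime) (hA : A.LiesOverPrime p) {m n : ℤ}
    (h : A.valuation (p : Qb) ^ n = A.valuation (p : Qb) ^ m) : n = m :=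
  le_antisymm ((mreo_zpow_le_iff hp hA).mp h.ge) ((mreo_zpow_le_iff hp hA).mp h.le)

theorem MreOrd.unique (hp : p.Prime) (hA : A.LiesOverPrime p) {e : ℕ} {y : Qb} {n n' : ℤ}
    (h : MreOrd A p e y n) (h' : MreOrd A p e y n') : n = n' := by
  unfold MreOrd at *
  exact mreo_zpow_inj hp hA (h.symm.trans h')

/-- comparison of valuations through orders. -/
theorem MreOrd.val_le_iff (hp : p.Prime) (hA : A.LiesOverPrime p) {e : ℕ} (he : e ≠ 0)
    {y y' : Qb} {n n' : ℤ} (h : MreOrd A p e y n) (h' : MreOrd A p e y' n') :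
    A.valuation y ≤ A.valuation y' ↔ n' ≤ n := by
  unfold MreOrd at *
  rw [← mreo_zpow_le_iff hp hA, ← h, ← h']
  exact (pow_le_pow_iff_left₀ zero_le zero_le he).symm

theorem MreOrd.val_lt_iff (hp : p.Prime) (hA : A.LiesOverPrime p) {e : ℕ} (he : e ≠ 0)
    {y y' : Qb} {n n' : ℤ} (h : MreOrd A p e y n) (h' : MreOrd A p e y' n') :
    A.valuation y < A.valuation y' ↔ n' < n := by
  rw [← not_le, h'.val_le_iff hp hA he h, not_le]

theorem MreOrd.val_eq_iff (hp : p.Prime) (hA : A.LiesOverPrime p) {e : ℕ} (he : e ≠ 0)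
    {y y' : Qb} {n n' : ℤ} (h : MreOrd A p e y n) (h' : MreOrd A p e y' n') :
    A.valuation y = A.valuation y' ↔ n = n' := by
  rw [le_antisymm_iff, h.val_le_iff hp hA he h', h'.val_le_iff hp hA he h]
  constructor
  · rintro ⟨h1, h2⟩; exact le_antisymm h2 h1
  · rintro rfl; exact ⟨le_rfl, le_rfl⟩

/-- `y ∈ A ↔ 0 ≤ ord y`. -/
theorem MreOrd.mem_iff (hp : p.Prime) (hA : A.LiesOverPrime p) {e : ℕ} (he : e ≠ 0)
    {y : Qb} {n : ℤ} (h : MreOrd A p e y n) : y ∈ A ↔ 0 ≤ n := by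
  rw [← A.valuation_le_one_iff, ← map_one A.valuation, h.val_le_iff hp hA he mreo_ord_one]

/-- `y ∈ 𝔪_A ↔ 0 < ord y`. -/
theorem MreOrd.nonunits_iff (hp : p.Prime) (hA : A.LiesOverPrime p) {e : ℕ} (he : e ≠ 0)
    {y : Qb} {n : ℤ} (h : MreOrd A p e y n) : y ∈ A.nonunits ↔ 0 < n := by
  rw [ValuationSubring.mem_nonunits_iff, ← map_one A.valuation,
    h.val_lt_iff hp hA he mreo_ord_one]

/-- transport along a valuation-preserving map. -/
theorem MreOrd.of_val_eq {e : ℕ} {y y' : Qb} {n : ℤ} (h : MreOrd A p e y n)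
    (hv : A.valuation y' = A.valuation y) : MreOrd A p e y' n := by
  unfold MreOrd at *
  rw [hv, h]

/-- change of exponent. -/
theorem MreOrd.mul_exp {e : ℕ} {y : Qb} {n : ℤ} (h : MreOrd A p e y n) (k : ℕ) :
    MreOrd A p (e * k) y (n * k) := by
  unfold MreOrd at *
  rw [pow_mul, h, zpow_mul, zpow_natCast]

/-- an `I`-fixed non-zero element has an order for the exponent `1`. -/
theorem mreo_ord_fixed (hp : p.Prime) (hA : A.LiesOverPrime p) {y : Qb} (hy0 : y ≠ 0)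
    (hy : ∀ σ ∈ A.inertiaSubgroupIn ℚ, σ y = y) : ∃ n : ℤ, MreOrd A p 1 y n := by
  obtain ⟨n, hn⟩ := mreo_fixed A hp hA hy0 hy
  exact ⟨n, by unfold MreOrd; rw [pow_one, hn]⟩

/-- the valuation of an inertial conjugate. -/
theorem mreo_val_inertia {σ : GQ} (hσ : σ ∈ A.inertiaSubgroupIn ℚ) (y : Qb) :
    A.valuation (σ y) = A.valuation y := by
  haveI : Algebra.IsAlgebraic ℚ Qb := AlgebraicClosure.isAlgebraic ℚ
  exact (isInertial_of_mem_inertiaSubgroupIn A σ hσ).valuation_eq y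

/-- inertia moves integral elements by elements of the maximal ideal. -/
theorem mreo_sub_inertia {σ : GQ} (hσ : σ ∈ A.inertiaSubgroupIn ℚ) {y : Qb} (hy : y ∈ A) :
    σ y - y ∈ A.nonunits :=
  (isInertial_of_mem_inertiaSubgroupIn A σ hσ).sub_mem y hy

theorem mreo_mem_inertia {σ : GQ} (hσ : σ ∈ A.inertiaSubgroupIn ℚ) {y : Qb} :
    σ y ∈ A ↔ y ∈ A :=
  (isInertial_of_mem_inertiaSubgroupIn A σ hσ).mem_iff y

end Fermat.Agent.MR
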