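import Mathlib
import Fermat.Agent.MR.E.Ord

/-!
# PROGRAM MR (S40), E-side, leaf (TOWER): the tower `ℚ̄^I ⊂ ℚ̄^{I₀} ⊂ ℚ̄^H` and its norms

Owner: helper10.  Namespace `Fermat.Agent.MR`, prefix `mret`.

`A` a place of `ℚ̄` over the odd prime `p`, `I` its inertia group, `ζ` a primitive `p`-th root of unity,
`I₀ = {g ∈ I | g ζ = ζ}`, `H ≤ I₀` normalised by `I`, `σ ∈ I₀` with `I₀ = ⋃ σ^k H`, `σ^p ∈ H`.

* `mret_val_zeta`     : `v (1 - ζ) ^ (p - 1) = v p`;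
* `mret_exists_pow`   : `I → (ℤ/p)ˣ` is onto: for `p ∤ a` there is `g ∈ I` with `g ζ = ζ ^ a`;
* `mret_norm_fixed`   : the product over a transversal is `I`-fixed;
* `mret_ord`          : every non-zero `y` fixed by `H` has `v y ^ (p (p - 1)) = v p ^ n`.
-/

set_option autoImplicit false
set_option linter.style.haveILetI false
set_option linter.unusedSectionVars false
set_option linter.unusedVariables false

noncomputable section

namespace Fermat.Agent.MR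

open Fermat.Agent.FF Fermat.Agent.TT Fermat.Agent.S05

local notation "Qb" => AlgebraicClosure ℚ
local notation "GQ" => (AlgebraicClosure ℚ ≃ₐ[ℚ] AlgebraicClosure ℚ)

variable {p : ℕ} {A : ValuationSubring Qb}

/-! ## elements fixed by a subgroup -/

/-- `y` is fixed by the subgroup `H`. -/
def MreFix (H : Subgroup GQ) (y : Qb) : Prop := ∀ h ∈ H, h y = y

namespace MreFix

variable {H : Subgroup GQ} {x y : Qb}

theorem zero : MreFix H 0 := fun h _ => map_zero h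
theorem one : MreFix H 1 := fun h _ => map_one h
theorem add (hx : MreFix H x) (hy : MreFix H y) : MreFix H (x + y) := fun h hh => by
  rw [map_add, hx h hh, hy h hh]
theorem mul (hx : MreFix H x) (hy : MreFix H y) : MreFix H (x * y) := fun h hh => by
  rw [map_mul, hx h hh, hy h hh]
theorem neg (hx : MreFix H x) : MreFix H (-x) := fun h hh => by rw [map_neg, hx h hh]
theorem sub (hx : MreFix H x) (hy : MreFix H y) : MreFix H (x - y) := fun h hh => by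
  rw [map_sub, hx h hh, hy h hh]
theorem inv (hx : MreFix H x) : MreFix H x⁻¹ := fun h hh => by rw [map_inv₀, hx h hh]
theorem div (hx : MreFix H x) (hy : MreFix H y) : MreFix H (x / y) := fun h hh => by
  rw [map_div₀, hx h hh, hy h hh]
theorem pow (hx : MreFix H x) (n : ℕ) : MreFix H (x ^ n) := fun h hh => by
  rw [map_pow, hx h hh]
theorem natCast (n : ℕ) : MreFix H (n : Qb) := fun h _ => map_natCast h n
theorem intCast (n : ℤ) : MreFix H (n : Qb) := fun h _ => map_intCast h n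

theorem mono {H' : Subgroup GQ} (hH : H ≤ H') (hx : MreFix H' x) : MreFix H x :=
  fun h hh => hx h (hH hh)

/-- an element normalising `H` maps `H`-fixed elements to `H`-fixed elements. -/
theorem map {g : GQ} (hg : ∀ h ∈ H, g⁻¹ * h * g ∈ H) (hx : MreFix H x) : MreFix H (g x) := by
  intro h hh
  have h1 := hx _ (hg h hh)
  have h2 : g ((g⁻¹ * h * g) x) = h (g x) := by
    simp only [AlgEquiv.mul_apply]
    rw [← AlgEquiv.mul_apply g g⁻¹, mul_inv_cancel, AlgEquiv.one_apply]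
  rw [← h2, h1]

theorem prod {ι : Type*} (s : Finset ι) (f : ι → Qb) (hf : ∀ i ∈ s, MreFix H (f i)) :
    MreFix H (∏ i ∈ s, f i) := fun h hh => by
  rw [map_prod]
  exact Finset.prod_congr rfl fun i hi => hf i hi h hh

end MreFix

/-! ## the cyclotomic facts -/

theorem mret_isPrimitiveRoot (hp : p.Prime) {ζ : Qb} (hζ : ζ ^ p = 1) (hζ1 : ζ ≠ 1) :
    IsPrimitiveRoot ζ p := by
  haveI : Fact p.Prime := ⟨hp⟩
  have h := orderOf_eq_prime hζ hζ1
  rw [← h]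
  exact IsPrimitiveRoot.orderOf ζ

theorem mret_zeta_mem {ζ : Qb} (hp : p.Prime) (hζ : ζ ^ p = 1) : ζ ∈ A := by
  rw [← A.valuation_le_one_iff]
  by_contra h
  rw [not_le] at h
  have h1 : 1 < A.valuation ζ ^ p := one_lt_pow₀ h hp.ne_zero
  rw [← map_pow, hζ, map_one] at h1
  exact lt_irrefl _ h1

theorem mret_zeta_pow_mem {ζ : Qb} (hp : p.Prime) (hζ : ζ ^ p = 1) (a : ℕ) : ζ ^ a ∈ A :=
  pow_mem (mret_zeta_mem hp hζ) a

/-- `1 - ζ ^ a = (1 - ζ) (1 + ζ + ⋯ + ζ^{a-1})`. -/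
theorem mret_one_sub_pow (ζ : Qb) (a : ℕ) :
    1 - ζ ^ a = (1 - ζ) * ∑ i ∈ Finset.range a, ζ ^ i := by
  have := mul_neg_geom_sum ζ a
  rw [mul_comm] at this
  linear_combination -this

theorem mret_geom_mem {ζ : Qb} (hp : p.Prime) (hζ : ζ ^ p = 1) (a : ℕ) :
    ∑ i ∈ Finset.range a, ζ ^ i ∈ A :=
  sum_mem fun i _ => mret_zeta_pow_mem hp hζ i

/-- `v (1 - ζ ^ a) ≤ v (1 - ζ)`. -/
theorem mret_val_one_sub_pow_le {ζ : Qb} (hp : p.Prime) (hζ : ζ ^ p = 1) (a : ℕ) :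
    A.valuation (1 - ζ ^ a) ≤ A.valuation (1 - ζ) := by
  rw [mret_one_sub_pow, map_mul]
  calc A.valuation (1 - ζ) * A.valuation (∑ i ∈ Finset.range a, ζ ^ i)
      ≤ A.valuation (1 - ζ) * 1 := by
        gcongr
        exact (A.valuation_le_one_iff _).mpr (mret_geom_mem hp hζ a)
    _ = _ := mul_one _

/-- `v (1 - ζ ^ a) = v (1 - ζ)` for `p ∤ a`. -/
theorem mret_val_one_sub_pow {ζ : Qb} (hp : p.Prime) (hζ : ζ ^ p = 1) {a : ℕ} (ha : ¬ p ∣ a) :
    A.valuation (1 - ζ ^ a) = A.valuation (1 - ζ) := by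
  refine le_antisymm (mret_val_one_sub_pow_le hp hζ a) ?_
  -- `ζ = (ζ ^ a) ^ b`
  have hcop : Nat.Coprime a p := (Nat.Coprime.symm ((Nat.Prime.coprime_iff_not_dvd hp).mpr ha))
  obtain ⟨b, -, hb⟩ := Nat.exists_mul_mod_eq_one_of_coprime hcop hp.one_lt
  have h1 : (ζ ^ a) ^ b = ζ := by
    rw [← pow_mul, ← Nat.div_add_mod (a * b) p, pow_add, pow_mul, hζ, one_pow, one_mul, hb,
      pow_one]
  have h2 : (ζ ^ a) ^ p = 1 := by rw [← pow_mul, mul_comm, pow_mul, hζ, one_pow]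
  have := mret_val_one_sub_pow_le (A := A) hp h2 b
  rwa [h1] at this

/-- `v (1 - ζ) ^ (p - 1) = v p`. -/
theorem mret_val_zeta (hp : p.Prime) {ζ : Qb} (hζ : ζ ^ p = 1) (hζ1 : ζ ≠ 1) :
    A.valuation (1 - ζ) ^ (p - 1) = A.valuation (p : Qb) := by
  have hprim := mret_isPrimitiveRoot hp hζ hζ1
  obtain ⟨n, rfl⟩ : ∃ n, p = n + 1 := ⟨p - 1, (Nat.succ_pred_eq_of_pos hp.pos).symm⟩
  have h1 := IsPrimitiveRoot.prod_one_sub_pow_eq_order hprim
  have h2 : A.valuation (∏ k ∈ Finset.range n, (1 - ζ ^ (k + 1))) =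
      A.valuation (1 - ζ) ^ n := by
    rw [map_prod]
    have : ∀ k ∈ Finset.range n, A.valuation (1 - ζ ^ (k + 1)) = A.valuation (1 - ζ) := by
      intro k hk
      apply mret_val_one_sub_pow hp hζ
      intro hdvd
      have hk' := Finset.mem_range.mp hk
      have := Nat.le_of_dvd (Nat.succ_pos k) hdvd
      omega
    rw [Finset.prod_congr rfl this, Finset.prod_const, Finset.card_range]
  rw [Nat.add_sub_cancel, ← h2, h1]
  push_cast
  rfl

theorem mret_val_zeta_lt (hp : p.Prime) (hA : A.LiesOverPrime p) {ζ : Qb} (hζ : ζ ^ p = 1)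
    (hζ1 : ζ ≠ 1) : A.valuation (1 - ζ) < 1 := by
  by_contra h
  rw [not_lt] at h
  have h1 : 1 ≤ A.valuation (1 - ζ) ^ (p - 1) := one_le_pow₀ h
  rw [mret_val_zeta hp hζ hζ1] at h1
  exact absurd (mreo_vp_lt A hA) (not_lt.mpr h1)

theorem mret_one_sub_zeta_ne {ζ : Qb} (hζ1 : ζ ≠ 1) : (1 : Qb) - ζ ≠ 0 :=
  sub_ne_zero.mpr (Ne.symm hζ1)

/-- `ζ ≡ 1` modulo the maximal ideal. -/
theorem mret_zeta_pow_sub_one (hp : p.Prime) (hA : A.LiesOverPrime p) {ζ : Qb} (hζ : ζ ^ p = 1)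
    (hζ1 : ζ ≠ 1) (a : ℕ) : ζ ^ a - 1 ∈ A.nonunits := by
  rw [ValuationSubring.mem_nonunits_iff, ← neg_sub, Valuation.map_neg]
  exact lt_of_le_of_lt (mret_val_one_sub_pow_le hp hζ a) (mret_val_zeta_lt hp hA hζ hζ1)

/-- `(1 - ζ ^ a) / (1 - ζ) ≡ a` modulo the maximal ideal. -/
theorem mret_geom_sub (hp : p.Prime) (hA : A.LiesOverPrime p) {ζ : Qb} (hζ : ζ ^ p = 1)
    (hζ1 : ζ ≠ 1) (a : ℕ) : ∑ i ∈ Finset.range a, ζ ^ i - (a : Qb) ∈ A.nonunits := by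
  have h1 : ∑ i ∈ Finset.range a, ζ ^ i - (a : Qb) = ∑ i ∈ Finset.range a, (ζ ^ i - 1) := by
    rw [Finset.sum_sub_distrib, Finset.sum_const, Finset.card_range, nsmul_eq_mul, mul_one]
  rw [h1]
  have hmem : ∀ i ∈ Finset.range a, (⟨ζ ^ i - 1, A.nonunits_le (mret_zeta_pow_sub_one hp hA hζ hζ1 i)⟩ : A) ∈
      IsLocalRing.maximalIdeal A := fun i _ =>
    A.coe_mem_nonunits_iff.mp (mret_zeta_pow_sub_one hp hA hζ hζ1 i)
  have hA' : ∑ i ∈ Finset.range a, (ζ ^ i - 1) ∈ A :=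
    sum_mem fun i _ => A.nonunits_le (mret_zeta_pow_sub_one hp hA hζ hζ1 i)
  have h2 : (⟨∑ i ∈ Finset.range a, (ζ ^ i - 1), hA'⟩ : A) =
      ∑ i ∈ (Finset.range a).attach, (⟨ζ ^ i.1 - 1, A.nonunits_le
        (mret_zeta_pow_sub_one hp hA hζ hζ1 i.1)⟩ : A) := by
    apply Subtype.ext
    rw [AddSubmonoidClass.coe_finsetSum]
    exact (Finset.sum_attach (Finset.range a) fun i => ζ ^ i - 1).symm
  have h3 : (⟨∑ i ∈ Finset.range a, (ζ ^ i - 1), hA'⟩ : A) ∈ IsLocalRing.maximalIdeal A := by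
    rw [h2]
    exact Ideal.sum_mem _ fun i _ => hmem i.1 i.2
  exact A.coe_mem_nonunits_iff.mpr h3

/-! ## the inertia group maps onto `(ℤ/p)ˣ` -/

/-- the product over an `I`-stable finite set is `I`-fixed. -/
theorem mret_prod_fixed (T : Finset Qb) (f : Qb → Qb)
    (hf : ∀ g ∈ A.inertiaSubgroupIn ℚ, ∀ ξ, g (f ξ) = f (g ξ))
    (hT : ∀ g ∈ A.inertiaSubgroupIn ℚ, ∀ ξ ∈ T, g ξ ∈ T) :
    ∀ g ∈ A.inertiaSubgroupIn ℚ, g (∏ ξ ∈ T, f ξ) = ∏ ξ ∈ T, f ξ := by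
  intro g hg
  rw [map_prod]
  refine Finset.prod_bij (fun ξ _ => g ξ) (fun ξ hξ => hT g hg ξ hξ)
    (fun ξ₁ _ ξ₂ _ h => g.injective h) (fun ξ hξ => ?_) (fun ξ _ => hf g hg ξ)
  refine ⟨g⁻¹ ξ, hT g⁻¹ (inv_mem hg) ξ hξ, ?_⟩
  rw [← AlgEquiv.mul_apply, mul_inv_cancel, AlgEquiv.one_apply]

/-- an `I`-fixed element of the maximal ideal has valuation `≤ v p`. -/
theorem mret_val_le_of_fixed (hp : p.Prime) (hA : A.LiesOverPrime p) {w : Qb}
    (hw : ∀ g ∈ A.inertiaSubgroupIn ℚ, g w = w) (hm : w ∈ A.nonunits) :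
    A.valuation w ≤ A.valuation (p : Qb) := by
  obtain ⟨w', hw', rfl⟩ := ttun_unr hp A hA (w := w) ⟨A.nonunits_le hm, hw⟩ hm
  rw [map_mul]
  calc A.valuation (p : Qb) * A.valuation w' ≤ A.valuation (p : Qb) * 1 := by
        gcongr
        exact (A.valuation_le_one_iff _).mpr hw'.1
    _ = _ := mul_one _

/-- **the inertia group maps onto `(ℤ/p)ˣ`**. -/
theorem mret_exists_pow (hp : p.Prime) (hA : A.LiesOverPrime p) {ζ : Qb} (hζ : ζ ^ p = 1)
    (hζ1 : ζ ≠ 1) {a : ℕ} (ha : ¬ p ∣ a) :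
    ∃ g ∈ A.inertiaSubgroupIn ℚ, g ζ = ζ ^ a := by
  classical
  have hprim := mret_isPrimitiveRoot hp hζ hζ1
  haveI : NeZero p := ⟨hp.ne_zero⟩
  set R : Finset Qb := (Polynomial.nthRootsFinset p (1 : Qb)).erase 1 with hR
  set T : Finset Qb := R.filter (fun ξ => ∃ g ∈ A.inertiaSubgroupIn ℚ, g ζ = ξ) with hT
  have hRcard : R.card = p - 1 := by
    rw [hR, Finset.card_erase_of_mem, hprim.card_nthRootsFinset]
    rw [Polynomial.mem_nthRootsFinset hp.pos]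
    exact one_pow p
  have hmemR : ∀ ξ : Qb, ξ ∈ R ↔ ξ ^ p = 1 ∧ ξ ≠ 1 := by
    intro ξ
    rw [hR, Finset.mem_erase, Polynomial.mem_nthRootsFinset hp.pos]
    tauto
  have hmemT : ∀ ξ : Qb, ξ ∈ T ↔ ∃ g ∈ A.inertiaSubgroupIn ℚ, g ζ = ξ := by
    intro ξ
    rw [hT, Finset.mem_filter]
    constructor
    · exact fun h => h.2
    · rintro ⟨g, hg, rfl⟩
      refine ⟨(hmemR _).mpr ⟨by rw [← map_pow, hζ, map_one], fun h => hζ1 ?_⟩, g, hg, rfl⟩
      exact g.injective (h.trans (map_one g).symm)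
  have hζT : ζ ∈ T := (hmemT ζ).mpr ⟨1, one_mem _, rfl⟩
  have hstab : ∀ g ∈ A.inertiaSubgroupIn ℚ, ∀ ξ ∈ T, g ξ ∈ T := by
    intro g hg ξ hξ
    obtain ⟨g', hg', rfl⟩ := (hmemT ξ).mp hξ
    exact (hmemT _).mpr ⟨g * g', mul_mem hg hg', rfl⟩
  set P : Qb := ∏ ξ ∈ T, (1 - ξ) with hP
  have hPfix : ∀ g ∈ A.inertiaSubgroupIn ℚ, g P = P :=
    mret_prod_fixed T (fun ξ => 1 - ξ) (fun g _ ξ => by rw [map_sub, map_one]) hstab
  have hvξ : ∀ ξ ∈ T, A.valuation (1 - ξ) = A.valuation (1 - ζ) := by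
    intro ξ hξ
    obtain ⟨g, hg, rfl⟩ := (hmemT ξ).mp hξ
    have : (1 : Qb) - g ζ = g (1 - ζ) := by rw [map_sub, map_one]
    rw [this, mreo_val_inertia hg]
  have hvP : A.valuation P = A.valuation (1 - ζ) ^ T.card := by
    rw [hP, map_prod, Finset.prod_congr rfl hvξ, Finset.prod_const]
  have hlt := mret_val_zeta_lt hp hA hζ hζ1
  have hTpos : 0 < T.card := Finset.card_pos.mpr ⟨ζ, hζT⟩
  have hPm : P ∈ A.nonunits := by
    rw [ValuationSubring.mem_nonunits_iff, hvP]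
    exact pow_lt_one₀ zero_le hlt hTpos.ne'
  have hle := mret_val_le_of_fixed hp hA hPfix hPm
  rw [hvP, ← mret_val_zeta hp hζ hζ1] at hle
  have hv0 : 0 < A.valuation (1 - ζ) :=
    zero_lt_iff.mpr ((A.valuation.ne_zero_iff).mpr (mret_one_sub_zeta_ne hζ1))
  have hcard : p - 1 ≤ T.card := by
    by_contra hcon
    rw [not_le] at hcon
    exact absurd hle (not_le.mpr (pow_lt_pow_right_of_lt_one₀ hv0 hlt hcon))
  have hTR : T = R := by
    apply Finset.eq_of_subset_of_card_le (Finset.filter_subset _ _)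
    rw [hRcard]
    exact hcard
  have hmem : ζ ^ a ∈ T := by
    rw [hTR, hmemR]
    refine ⟨by rw [← pow_mul, mul_comm, pow_mul, hζ, one_pow], fun h => ha ?_⟩
    exact (hprim.pow_eq_one_iff_dvd a).mp h
  exact (hmemT _).mp hmem

/-- every `p`-th root of unity different from `1` is `ζ ^ a` with `1 ≤ a < p`. -/
theorem mret_eq_pow (hp : p.Prime) {ζ : Qb} (hζ : ζ ^ p = 1) (hζ1 : ζ ≠ 1) {ξ : Qb}
    (hξ : ξ ^ p = 1) (hξ1 : ξ ≠ 1) : ∃ a : ℕ, 1 ≤ a ∧ a < p ∧ ξ = ζ ^ a := by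
  have hprim := mret_isPrimitiveRoot hp hζ hζ1
  haveI : NeZero p := ⟨hp.ne_zero⟩
  obtain ⟨a, ha, rfl⟩ := hprim.eq_pow_of_pow_eq_one hξ
  refine ⟨a, ?_, ha, rfl⟩
  rcases Nat.eq_zero_or_pos a with h0 | h0
  · exact absurd (by rw [h0, pow_zero]) hξ1
  · exact h0

/-! ## the norm over a transversal -/

/-- **the product over a transversal of `H` in `I` is `I`-fixed.** -/
theorem mret_norm_fixed {ι : Type*} [Fintype ι] (I H : Subgroup GQ) (r : ι → GQ)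
    (hT2 : ∀ g ∈ I, ∀ i, ∃ i', ∃ h ∈ H, g * r i = r i' * h)
    (hT3 : ∀ i i', ∀ h ∈ H, r i = r i' * h → i = i')
    {y : Qb} (hy : MreFix H y) : ∀ g ∈ I, g (∏ i, r i y) = ∏ i, r i y := by
  classical
  intro g hg
  choose f hf using hT2 g hg
  choose h hh hfh using hf
  have hinj : Function.Injective f := by
    intro i i' hii
    apply hT3 i i' ((h i')⁻¹ * h i) (mul_mem (inv_mem (hh i')) (hh i))
    have h1 : r i = g⁻¹ * (r (f i) * h i) := by rw [← hfh i, inv_mul_cancel_left]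
    have h2 : r i' = g⁻¹ * (r (f i) * h i') := by rw [hii, ← hfh i', inv_mul_cancel_left]
    rw [h1, h2]
    group
  have hbij : Function.Bijective f := Finite.injective_iff_bijective.mp hinj
  rw [map_prod]
  have h1 : ∀ i, g (r i y) = r (f i) y := by
    intro i
    have : g (r i y) = (g * r i) y := rfl
    rw [this, hfh i, AlgEquiv.mul_apply, hy (h i) (hh i)]
  rw [Finset.prod_congr rfl fun i _ => h1 i]
  exact Function.Bijective.prod_comp hbij fun i => r i y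

/-- the valuation of the product over a family of inertial automorphisms. -/
theorem mret_norm_val {ι : Type*} [Fintype ι] (r : ι → GQ)
    (hr : ∀ i, r i ∈ A.inertiaSubgroupIn ℚ) (y : Qb) :
    A.valuation (∏ i, r i y) = A.valuation y ^ Fintype.card ι := by
  rw [map_prod, Finset.prod_congr rfl fun i _ => mreo_val_inertia (hr i) y, Finset.prod_const,
    Finset.card_univ]

/-! ## the tower -/

/-- the tower `ℚ̄^I ⊂ ℚ̄^{I₀} ⊂ ℚ̄^H`: `I₀ = {g ∈ I | g ζ = ζ} = ⋃ σ^k H`, `σ^p ∈ H`, `σ ∉ H`,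
`H` normalised by `I`. -/
structure MreTower (p : ℕ) (A : ValuationSubring Qb) (ζ : Qb) (H : Subgroup GQ) (σ : GQ) :
    Prop where
  hζ : ζ ^ p = 1
  hζ1 : ζ ≠ 1
  hHI : H ≤ A.inertiaSubgroupIn ℚ
  hHζ : ∀ h ∈ H, h ζ = ζ
  hHn : ∀ g ∈ A.inertiaSubgroupIn ℚ, ∀ h ∈ H, g * h * g⁻¹ ∈ H
  hσI : σ ∈ A.inertiaSubgroupIn ℚ
  hσζ : σ ζ = ζ
  hσp : σ ^ p ∈ H
  hσH : σ ∉ H
  hcover : ∀ g ∈ A.inertiaSubgroupIn ℚ, g ζ = ζ → ∃ k : ℕ, ∃ h ∈ H, g = σ ^ k * h

namespace MreTower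

variable {ζ : Qb} {H : Subgroup GQ} {σ : GQ}

theorem hHn' (T : MreTower p A ζ H σ) {g : GQ} (hg : g ∈ A.inertiaSubgroupIn ℚ) :
    ∀ h ∈ H, g⁻¹ * h * g ∈ H := fun h hh => by
  have := T.hHn g⁻¹ (inv_mem hg) h hh
  rwa [inv_inv] at this

theorem map_fix (T : MreTower p A ζ H σ) {g : GQ} (hg : g ∈ A.inertiaSubgroupIn ℚ) {y : Qb}
    (hy : MreFix H y) : MreFix H (g y) :=
  hy.map (T.hHn' hg)

theorem pow_mem_I (T : MreTower p A ζ H σ) (k : ℕ) : σ ^ k ∈ A.inertiaSubgroupIn ℚ :=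
  pow_mem T.hσI k

theorem pow_zeta (T : MreTower p A ζ H σ) (k : ℕ) : (σ ^ k) ζ = ζ := by
  induction k with
  | zero => rfl
  | succ k ih => rw [pow_succ, AlgEquiv.mul_apply, T.hσζ, ih]

/-- `σ ^ k ∈ σ ^ (k % p) H`. -/
theorem pow_mod (T : MreTower p A ζ H σ) (k : ℕ) : ∃ h ∈ H, σ ^ k = σ ^ (k % p) * h := by
  refine ⟨(σ ^ p) ^ (k / p), pow_mem T.hσp _, ?_⟩
  rw [← pow_mul, ← pow_add, Nat.mod_add_div]

/-- `σ ^ m ∈ H` with `0 < m < p` is impossible. -/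
theorem pow_not_mem (T : MreTower p A ζ H σ) (hp : p.Prime) {m : ℕ} (hm0 : 0 < m) (hmp : m < p) :
    σ ^ m ∉ H := by
  intro hm
  have hcop : Nat.Coprime m p :=
    (Nat.Coprime.symm ((Nat.Prime.coprime_iff_not_dvd hp).mpr fun h =>
      absurd (Nat.le_of_dvd hm0 h) (not_le.mpr hmp)))
  obtain ⟨u, -, hu⟩ := Nat.exists_mul_mod_eq_one_of_coprime hcop hp.one_lt
  have h1 : σ ^ (m * u) ∈ H := by rw [pow_mul]; exact pow_mem hm u
  obtain ⟨h, hh, h2⟩ := T.pow_mod (m * u)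
  rw [hu, pow_one] at h2
  apply T.hσH
  have : σ = σ ^ (m * u) * h⁻¹ := by rw [h2, mul_inv_cancel_right]
  rw [this]
  exact mul_mem h1 (inv_mem hh)

end MreTower

/-! ## the transversal and the order of the elements of `ℚ̄^H` -/

open Classical in
/-- a chosen element of `I` with `g ζ = ζ ^ a`. -/
def mretSel (A : ValuationSubring Qb) (ζ : Qb) (a : ℕ) : GQ :=
  if h : ∃ g ∈ A.inertiaSubgroupIn ℚ, g ζ = ζ ^ a then Classical.choose h else 1

theorem mretSel_mem (A : ValuationSubring Qb) (ζ : Qb) (a : ℕ) :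
    mretSel A ζ a ∈ A.inertiaSubgroupIn ℚ := by
  unfold mretSel
  split_ifs with h
  · exact (Classical.choose_spec h).1
  · exact one_mem _

theorem mretSel_zeta (hp : p.Prime) (hA : A.LiesOverPrime p) {ζ : Qb} (hζ : ζ ^ p = 1)
    (hζ1 : ζ ≠ 1) {a : ℕ} (ha : ¬ p ∣ a) : mretSel A ζ a ζ = ζ ^ a := by
  unfold mretSel
  rw [dif_pos (mret_exists_pow hp hA hζ hζ1 ha)]
  exact (Classical.choose_spec (mret_exists_pow hp hA hζ hζ1 ha)).2

/-- the transversal of `H` in `I`. -/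
def mretTr (p : ℕ) (A : ValuationSubring Qb) (ζ : Qb) (σ : GQ) (i : Fin (p - 1) × Fin p) : GQ :=
  mretSel A ζ (i.1.1 + 1) * σ ^ i.2.1

namespace MreTower

variable {ζ : Qb} {H : Subgroup GQ} {σ : GQ}

theorem tr_mem (T : MreTower p A ζ H σ) (i : Fin (p - 1) × Fin p) :
    mretTr p A ζ σ i ∈ A.inertiaSubgroupIn ℚ :=
  mul_mem (mretSel_mem A ζ _) (T.pow_mem_I _)

theorem not_dvd_succ (hp : p.Prime) (a : Fin (p - 1)) : ¬ p ∣ a.1 + 1 := by
  intro h
  have := Nat.le_of_dvd (Nat.succ_pos _) h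
  have := a.2
  omega

theorem tr_zeta (T : MreTower p A ζ H σ) (hp : p.Prime) (hA : A.LiesOverPrime p)
    (i : Fin (p - 1) × Fin p) : mretTr p A ζ σ i ζ = ζ ^ (i.1.1 + 1) := by
  unfold mretTr
  rw [AlgEquiv.mul_apply, T.pow_zeta, mretSel_zeta hp hA T.hζ T.hζ1 (not_dvd_succ hp i.1)]

theorem tr_T2 (T : MreTower p A ζ H σ) (hp : p.Prime) (hA : A.LiesOverPrime p) :
    ∀ g ∈ A.inertiaSubgroupIn ℚ, ∀ i, ∃ i', ∃ h ∈ H,
      g * mretTr p A ζ σ i = mretTr p A ζ σ i' * h := by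
  intro g hg i
  set g' := g * mretTr p A ζ σ i with hg'
  have hg'I : g' ∈ A.inertiaSubgroupIn ℚ := mul_mem hg (T.tr_mem i)
  have hξp : (g' ζ) ^ p = 1 := by rw [← map_pow, T.hζ, map_one]
  have hξ1 : g' ζ ≠ 1 := fun h => T.hζ1 (g'.injective (h.trans (map_one g').symm))
  obtain ⟨a', ha1, hap, hξ⟩ := mret_eq_pow hp T.hζ T.hζ1 hξp hξ1
  have ha' : ¬ p ∣ a' := fun h => absurd (Nat.le_of_dvd ha1 h) (not_le.mpr hap)
  set s := mretSel A ζ a' with hs
  have hsI : s ∈ A.inertiaSubgroupIn ℚ := mretSel_mem A ζ a'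
  have hsζ : s ζ = ζ ^ a' := mretSel_zeta hp hA T.hζ T.hζ1 ha'
  have hfix : (s⁻¹ * g') ζ = ζ := by
    rw [AlgEquiv.mul_apply, hξ, ← hsζ, ← AlgEquiv.mul_apply, inv_mul_cancel, AlgEquiv.one_apply]
  obtain ⟨k, h, hh, hk⟩ := T.hcover (s⁻¹ * g') (mul_mem (inv_mem hsI) hg'I) hfix
  obtain ⟨h2, hh2, hk2⟩ := T.pow_mod k
  have hkp : k % p < p := Nat.mod_lt _ hp.pos
  refine ⟨(⟨a' - 1, by omega⟩, ⟨k % p, hkp⟩), h2 * h, mul_mem hh2 hh, ?_⟩
  have h1 : g' = s * (σ ^ k * h) := by rw [← hk, mul_inv_cancel_left]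
  rw [h1, hk2]
  unfold mretTr
  simp only
  have : a' - 1 + 1 = a' := by omega
  rw [this, ← hs]
  simp only [mul_assoc]

theorem tr_T3 (T : MreTower p A ζ H σ) (hp : p.Prime) (hA : A.LiesOverPrime p) :
    ∀ i i', ∀ h ∈ H, mretTr p A ζ σ i = mretTr p A ζ σ i' * h → i = i' := by
  intro i i' h hh hii
  have hprim := mret_isPrimitiveRoot hp T.hζ T.hζ1
  have h1 : ζ ^ (i.1.1 + 1) = ζ ^ (i'.1.1 + 1) := by
    rw [← T.tr_zeta hp hA i, hii, AlgEquiv.mul_apply, T.hHζ h hh, T.tr_zeta hp hA i']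
  have hi1 := i.1.2
  have hi1' := i'.1.2
  have h2 : i.1.1 + 1 = i'.1.1 + 1 := hprim.pow_inj (by omega) (by omega) h1
  have h3 : i.1 = i'.1 := Fin.ext (by omega)
  have h4 : σ ^ i.2.1 = σ ^ i'.2.1 * h := by
    unfold mretTr at hii
    rw [h3, mul_assoc] at hii
    exact mul_left_cancel hii
  have h5 : i.2.1 = i'.2.1 := by
    rcases lt_trichotomy i.2.1 i'.2.1 with hlt | heq | hgt
    · exfalso
      apply T.pow_not_mem hp (m := i'.2.1 - i.2.1) (by omega) (by have := i'.2.2; omega)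
      have : σ ^ (i'.2.1 - i.2.1) = h⁻¹ := by
        have e : σ ^ i'.2.1 = σ ^ i.2.1 * σ ^ (i'.2.1 - i.2.1) := by
          rw [← pow_add]; congr 1; omega
        rw [e] at h4
        have h6 : σ ^ (i'.2.1 - i.2.1) * h = 1 := by
          have := h4
          rw [mul_assoc] at this
          exact (mul_left_cancel (a := σ ^ i.2.1) (by rw [mul_one]; exact this)).symm
        exact eq_inv_of_mul_eq_one_left h6
      rw [this]
      exact inv_mem hh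
    · exact heq
    · exfalso
      apply T.pow_not_mem hp (m := i.2.1 - i'.2.1) (by omega) (by have := i.2.2; omega)
      have e : σ ^ i.2.1 = σ ^ i'.2.1 * σ ^ (i.2.1 - i'.2.1) := by
        rw [← pow_add]; congr 1; omega
      rw [e] at h4
      rw [mul_left_cancel h4]
      exact hh
  exact Prod.ext h3 (Fin.ext h5)

/-- the norm of an `H`-fixed element. -/
def norm (T : MreTower p A ζ H σ) (y : Qb) : Qb := ∏ i, mretTr p A ζ σ i y

theorem norm_fixed (T : MreTower p A ζ H σ) (hp : p.Prime) (hA : A.LiesOverPrime p) {y : Qb}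
    (hy : MreFix H y) : ∀ g ∈ A.inertiaSubgroupIn ℚ, g (T.norm y) = T.norm y :=
  mret_norm_fixed (A.inertiaSubgroupIn ℚ) H (mretTr p A ζ σ) (T.tr_T2 hp hA) (T.tr_T3 hp hA) hy

theorem norm_val (T : MreTower p A ζ H σ) (y : Qb) :
    A.valuation (T.norm y) = A.valuation y ^ (p * (p - 1)) := by
  unfold norm
  rw [mret_norm_val _ T.tr_mem, Fintype.card_prod, Fintype.card_fin, Fintype.card_fin, mul_comm]

/-- **every non-zero `H`-fixed element has an order for the exponent `p (p - 1)`.** -/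
theorem ord (T : MreTower p A ζ H σ) (hp : p.Prime) (hA : A.LiesOverPrime p) {y : Qb}
    (hy : MreFix H y) (hy0 : y ≠ 0) : ∃ n : ℤ, MreOrd A p (p * (p - 1)) y n := by
  have hN0 : T.norm y ≠ 0 := by
    unfold norm
    exact Finset.prod_ne_zero_iff.mpr fun i _ => (map_ne_zero _).mpr hy0
  obtain ⟨n, hn⟩ := mreo_fixed A hp hA hN0 (T.norm_fixed hp hA hy)
  exact ⟨n, by unfold MreOrd; rw [← T.norm_val, hn]⟩

end MreTower

end Fermat.Agent.MR
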