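import Mathlib
import Fermat.Agent.MR.E.Tower

/-!
# PROGRAM MR (S40), E-side, leaf (BREAK): the ramification break of `ℚ̄^H / ℚ̄^{I₀}` is `1`

Owner: helper10.  Namespace `Fermat.Agent.MR`, prefix `mreb`.

In the tower of `Tower.lean`, assume moreover
* (conj) `g σ g⁻¹ ∈ σ^a H` for `g ∈ I` with `g ζ = ζ^a` (the conjugation action is the cyclotomic
  character), and
* (tau) there is an `H`-fixed `τ ∈ 𝔪_A` with `v (σ τ - τ) = v (1 - ζ)`.
Then (`mreb_main`) there is an `H`-fixed uniformiser `π` (`v π ^ (p (p - 1)) = v p`, every `H`-fixed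
`y ≠ 0` has `v y = v π ^ n`) with `v (σ π - π) = v π ^ 2` and `v (σ y - y) ≤ v π ^ 2` for every
`H`-fixed `y ∈ A`:  **property (P1)** (lower ramification break `1`).
-/

set_option autoImplicit false
set_option linter.style.haveILetI false
set_option linter.unusedSectionVars false
set_option linter.unusedVariables false

noncomputable section

namespace Fermat.Agent.MR

open Fermat.Agent.FF Fermat.Agent.TT Fermat.Agent.S05

local notation "Qb" => AlgebraicClosure ℚ
local notation "GQ" => (AlgebraicClosure ℚ ≃ₐ[ℚ] AlgebraicClosure ℚ)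

variable {p : ℕ} {A : ValuationSubring Qb} {ζ : Qb} {H : Subgroup GQ} {σ : GQ}

/-! ## the minimal positive order -/

/-- the exponent `p (p - 1)` is not zero. -/
theorem mreb_e_ne (hp : p.Prime) : p * (p - 1) ≠ 0 := by
  have := hp.two_le
  exact Nat.mul_ne_zero hp.ne_zero (by omega)

/-- `1 - ζ` has order `p`. -/
theorem mreb_ord_zeta (T : MreTower p A ζ H σ) (hp : p.Prime) :
    MreOrd A p (p * (p - 1)) (1 - ζ) p := by
  unfold MreOrd
  rw [mul_comm, pow_mul, mret_val_zeta hp T.hζ T.hζ1, zpow_natCast]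

theorem mreb_fix_zeta (T : MreTower p A ζ H σ) : MreFix H ζ := T.hHζ

theorem mreb_fix_one_sub_zeta (T : MreTower p A ζ H σ) : MreFix H (1 - ζ) :=
  MreFix.one.sub T.hHζ

/-- elements of `W = A^I` are `H`-fixed. -/
theorem mreb_fix_W (T : MreTower p A ζ H σ) {w : Qb} (hw : w ∈ ffiwRing A) : MreFix H w :=
  fun h hh => hw.2 h (T.hHI hh)

/-- **existence of a uniformiser candidate**: an `H`-fixed `π` of minimal positive order `d`, and
all orders are multiples of `d`. -/
theorem mreb_exists_min (T : MreTower p A ζ H σ) (hp : p.Prime) (hA : A.LiesOverPrime p) :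
    ∃ (π : Qb) (d : ℕ), MreFix H π ∧ 0 < d ∧ MreOrd A p (p * (p - 1)) π d ∧
      ∀ y : Qb, MreFix H y → ∀ n : ℤ, MreOrd A p (p * (p - 1)) y n → (d : ℤ) ∣ n := by
  classical
  have he := mreb_e_ne hp
  let S : ℕ → Prop := fun n => 0 < n ∧ ∃ y : Qb, MreFix H y ∧ MreOrd A p (p * (p - 1)) y n
  have hS : ∃ n, S n := ⟨p, hp.pos, 1 - ζ, mreb_fix_one_sub_zeta T, mreb_ord_zeta T hp⟩
  obtain ⟨hd0, π, hπH, hπ⟩ := Nat.find_spec hS
  refine ⟨π, Nat.find hS, hπH, hd0, hπ, ?_⟩
  intro y hy n hn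
  set d := Nat.find hS with hd
  -- `n = q d + r`
  have hdpos : (0 : ℤ) < d := by exact_mod_cast hd0
  set q := n / d with hq
  set r := n % d with hr
  have hr0 : 0 ≤ r := Int.emod_nonneg _ hdpos.ne'
  have hrd : r < d := Int.emod_lt_of_pos _ hdpos
  have hnqr : n = d * q + r := (Int.mul_ediv_add_emod n d).symm
  by_contra hdvd
  have hrne : r ≠ 0 := fun h => hdvd (Int.dvd_of_emod_eq_zero h)
  have hrpos : 0 < r := lt_of_le_of_ne hr0 (Ne.symm hrne)
  -- the element `y / π ^ q` has order `r`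
  have hπ0 : π ≠ 0 := hπ.ne_zero hp he
  have hord : MreOrd A p (p * (p - 1)) (y * (π ^ q)⁻¹) r := by
    have h1 : MreOrd A p (p * (p - 1)) (π ^ q) (q * d) := by
      unfold MreOrd at hπ ⊢
      rw [map_zpow₀, ← zpow_natCast, ← zpow_mul, mul_comm q, zpow_mul, zpow_natCast, hπ,
        ← zpow_mul, mul_comm]
    have h2 := hn.mul hp h1.inv
    have : n + -(q * d) = r := by rw [hnqr]; ring
    rwa [this] at h2
  have hfix : MreFix H (y * (π ^ q)⁻¹) := by
    refine hy.mul (MreFix.inv ?_)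
    intro h hh
    rw [map_zpow₀, hπH h hh]
  have hmin := Nat.find_min hS (m := r.toNat) (by
    rw [← hd]
    have : (r.toNat : ℤ) = r := Int.toNat_of_nonneg hr0
    omega)
  apply hmin
  refine ⟨by omega, y * (π ^ q)⁻¹, hfix, ?_⟩
  rwa [Int.toNat_of_nonneg hr0]

/-! ## uniformisers and expansions -/

/-- `ϖ` divides every `H`-fixed element of the maximal ideal. -/
def MrebUnif (A : ValuationSubring Qb) (H : Subgroup GQ) (ϖ : Qb) : Prop :=
  ∀ z : Qb, MreFix H z → z ∈ A.nonunits → z / ϖ ∈ A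

/-- an `H`-fixed element of minimal positive order is a uniformiser. -/
theorem mreb_unif_of_min (T : MreTower p A ζ H σ) (hp : p.Prime) (hA : A.LiesOverPrime p)
    {d : ℕ} (hd : 0 < d)
    (hmin : ∀ y : Qb, MreFix H y → ∀ n : ℤ, MreOrd A p (p * (p - 1)) y n → (d : ℤ) ∣ n)
    {ϖ : Qb} (hϖH : MreFix H ϖ) (hϖ : MreOrd A p (p * (p - 1)) ϖ d) : MrebUnif A H ϖ := by
  intro z hz hzm
  have he := mreb_e_ne hp
  by_cases hz0 : z = 0
  · rw [hz0, zero_div]; exact A.zero_mem
  obtain ⟨n, hn⟩ := T.ord hp hA hz hz0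
  have hnpos : 0 < n := (hn.nonunits_iff hp hA he).mp hzm
  obtain ⟨k, hk⟩ := hmin z hz n hn
  have hdpos : (0 : ℤ) < d := by exact_mod_cast hd
  have hk1 : 1 ≤ k := by
    by_contra hcon
    rw [not_le] at hcon
    have hk0 : k ≤ 0 := by omega
    have : n ≤ 0 := by rw [hk]; exact mul_nonpos_of_nonneg_of_nonpos hdpos.le hk0
    omega
  have hord := hn.div hp hϖ
  rw [hord.mem_iff hp hA he, hk]
  nlinarith

/-- decomposition `y = w + ϖ y₁` with `w ∈ W`. -/
theorem mreb_decomp (T : MreTower p A ζ H σ) (hp : p.Prime) (hA : A.LiesOverPrime p)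
    {ϖ : Qb} (hϖH : MreFix H ϖ) (hϖ0 : ϖ ≠ 0) (hU : MrebUnif A H ϖ) {y : Qb} (hy : MreFix H y)
    (hyA : y ∈ A) :
    ∃ w ∈ ffiwRing A, ∃ y₁ : Qb, MreFix H y₁ ∧ y₁ ∈ A ∧ y = w + ϖ * y₁ := by
  haveI : Fact p.Prime := ⟨hp⟩
  obtain ⟨w, hw, hsub⟩ := ffiw_residue_surjective A hA hyA
  have hfix : MreFix H (y - w) := hy.sub (mreb_fix_W T hw)
  refine ⟨w, hw, (y - w) / ϖ, hfix.div hϖH, hU _ hfix hsub, ?_⟩
  field_simp
  ring

/-- **the expansion estimate**: `v (σ y - y) ≤ max (v (σ ϖ - ϖ)) (v ϖ ^ n)` for every `H`-fixed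
`y ∈ A`. -/
theorem mreb_expand (T : MreTower p A ζ H σ) (hp : p.Prime) (hA : A.LiesOverPrime p)
    {ϖ : Qb} (hϖH : MreFix H ϖ) (hϖ0 : ϖ ≠ 0) (hϖA : ϖ ∈ A) (hU : MrebUnif A H ϖ) (n : ℕ) :
    ∀ y : Qb, MreFix H y → y ∈ A →
      A.valuation (σ y - y) ≤ max (A.valuation (σ ϖ - ϖ)) (A.valuation ϖ ^ n) := by
  induction n with
  | zero =>
    intro y hy hyA
    rw [pow_zero]
    refine le_trans ?_ (le_max_right _ _)
    exact (A.valuation_le_one_iff _).mpr (sub_mem ((mreo_mem_inertia T.hσI).mpr hyA) hyA)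
  | succ n ih =>
    intro y hy hyA
    obtain ⟨w, hw, y₁, hy₁, hy₁A, rfl⟩ := mreb_decomp T hp hA hϖH hϖ0 hU hy hyA
    have hσw : σ w = w := hw.2 σ T.hσI
    have e : σ (w + ϖ * y₁) - (w + ϖ * y₁) = (σ ϖ - ϖ) * σ y₁ + ϖ * (σ y₁ - y₁) := by
      rw [map_add, map_mul, hσw]; ring
    rw [e]
    have hϖ1 : A.valuation ϖ ≤ 1 := (A.valuation_le_one_iff _).mpr hϖA
    have h1 : A.valuation ((σ ϖ - ϖ) * σ y₁) ≤ A.valuation (σ ϖ - ϖ) := by
      rw [map_mul]
      calc A.valuation (σ ϖ - ϖ) * A.valuation (σ y₁) ≤ A.valuation (σ ϖ - ϖ) * 1 := by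
            gcongr
            exact (A.valuation_le_one_iff _).mpr ((mreo_mem_inertia T.hσI).mpr hy₁A)
        _ = _ := mul_one _
    have h2 : A.valuation (ϖ * (σ y₁ - y₁)) ≤
        max (A.valuation (σ ϖ - ϖ)) (A.valuation ϖ ^ (n + 1)) := by
      rw [map_mul]
      rcases le_max_iff.mp (ih y₁ hy₁ hy₁A) with h | h
      · refine le_trans ?_ (le_max_left _ _)
        calc A.valuation ϖ * A.valuation (σ y₁ - y₁) ≤ 1 * A.valuation (σ ϖ - ϖ) := by
              gcongr
          _ = _ := one_mul _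
      · refine le_trans ?_ (le_max_right _ _)
        rw [pow_succ']
        gcongr
    exact (A.valuation.map_add _ _).trans (max_le (h1.trans (le_max_left _ _)) h2)

/-! ## the uniformiser has order `1` -/

theorem MreOrd.zpow {e : ℕ} {y : Qb} {n : ℤ} (h : MreOrd A p e y n) (k : ℤ) :
    MreOrd A p e (y ^ k) (k * n) := by
  unfold MreOrd at h ⊢
  rw [map_zpow₀, ← zpow_natCast, ← zpow_mul, mul_comm k, zpow_mul, zpow_natCast, h, ← zpow_mul,
    mul_comm]

/-- the powers of a valuation `< 1` are strictly decreasing. -/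
theorem mreb_pow_lt {x : Qb} (hx0 : x ≠ 0) (hx : A.valuation x < 1) {m n : ℕ} (h : m < n) :
    A.valuation x ^ n < A.valuation x ^ m :=
  pow_lt_pow_right_of_lt_one₀ (zero_lt_iff.mpr ((A.valuation.ne_zero_iff).mpr hx0)) hx h

theorem mreb_pow_le_iff {x : Qb} (hx0 : x ≠ 0) (hx : A.valuation x < 1) {m n : ℕ} :
    A.valuation x ^ n ≤ A.valuation x ^ m ↔ m ≤ n := by
  constructor
  · intro h
    by_contra hcon
    rw [not_le] at hcon
    exact absurd h (not_le.mpr (mreb_pow_lt hx0 hx hcon))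
  · intro h
    rcases h.lt_or_eq with h | h
    · exact (mreb_pow_lt hx0 hx h).le
    · rw [h]

/-- **there is an `H`-fixed uniformiser of order `1`.** -/
theorem mreb_exists_unif (T : MreTower p A ζ H σ) (hp : p.Prime) (hA : A.LiesOverPrime p)
    {τ : Qb} (hτH : MreFix H τ) (hτm : τ ∈ A.nonunits)
    (hτσ : A.valuation (σ τ - τ) = A.valuation (1 - ζ)) :
    ∃ π : Qb, MreFix H π ∧ MreOrd A p (p * (p - 1)) π 1 ∧ MrebUnif A H π := by
  have he := mreb_e_ne hp
  obtain ⟨π, d, hπH, hd0, hπ, hmin⟩ := mreb_exists_min T hp hA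
  have hdp : (d : ℤ) ∣ (p : ℤ) := hmin _ (mreb_fix_one_sub_zeta T) _ (mreb_ord_zeta T hp)
  have hdp' : d ∣ p := Int.natCast_dvd_natCast.mp hdp
  rcases (Nat.dvd_prime hp).mp hdp' with h1 | hdp
  · subst h1
    exact ⟨π, hπH, by simpa using hπ, mreb_unif_of_min T hp hA hd0 hmin hπH hπ⟩
  · exfalso
    subst hdp
    have hϖ0 : (1 : Qb) - ζ ≠ 0 := mret_one_sub_zeta_ne T.hζ1
    have hϖlt := mret_val_zeta_lt (A := A) hp hA T.hζ T.hζ1
    have hU : MrebUnif A H (1 - ζ) :=
      mreb_unif_of_min T hp hA hd0 hmin (mreb_fix_one_sub_zeta T) (mreb_ord_zeta T hp)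
    have hσϖ : σ (1 - ζ) - (1 - ζ) = 0 := by rw [map_sub, map_one, T.hσζ, sub_self]
    have key := mreb_expand T hp hA (mreb_fix_one_sub_zeta T) hϖ0
      (A.nonunits_le ((ValuationSubring.mem_nonunits_iff (A := A)).mpr hϖlt)) hU 2 τ hτH
      (A.nonunits_le hτm)
    rw [hσϖ, map_zero, max_eq_right zero_le, hτσ] at key
    have := mreb_pow_lt hϖ0 hϖlt (show 1 < 2 by norm_num)
    rw [pow_one] at this
    exact absurd key (not_le.mpr this)

/-- the data of an `H`-fixed uniformiser of order `1`. -/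
structure MrebPi (p : ℕ) (A : ValuationSubring Qb) (H : Subgroup GQ) (π : Qb) : Prop where
  fix : MreFix H π
  ord : MreOrd A p (p * (p - 1)) π 1
  unif : MrebUnif A H π

namespace MrebPi

variable {π : Qb}

theorem ne_zero (P : MrebPi p A H π) (hp : p.Prime) : π ≠ 0 := P.ord.ne_zero hp (mreb_e_ne hp)

theorem val_lt (P : MrebPi p A H π) (hp : p.Prime) (hA : A.LiesOverPrime p) :
    A.valuation π < 1 :=
  (ValuationSubring.mem_nonunits_iff (A := A)).mp
    ((P.ord.nonunits_iff hp hA (mreb_e_ne hp)).mpr one_pos)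

theorem mem (P : MrebPi p A H π) (hp : p.Prime) (hA : A.LiesOverPrime p) : π ∈ A :=
  (A.valuation_le_one_iff _).mp (P.val_lt hp hA).le

/-- every non-zero `H`-fixed element has valuation `v π ^ n`. -/
theorem val_eq_zpow (P : MrebPi p A H π) (T : MreTower p A ζ H σ) (hp : p.Prime)
    (hA : A.LiesOverPrime p) {y : Qb} (hy : MreFix H y) (hy0 : y ≠ 0) :
    ∃ n : ℤ, A.valuation y = A.valuation π ^ n := by
  obtain ⟨n, hn⟩ := T.ord hp hA hy hy0
  refine ⟨n, ?_⟩
  have h1 := P.ord.zpow n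
  rw [mul_one] at h1
  rw [← map_zpow₀]
  exact (hn.val_eq_iff hp hA (mreb_e_ne hp) h1).mpr rfl

/-- every non-zero `H`-fixed element of `A` has valuation `v π ^ n`, `n : ℕ`. -/
theorem val_eq_pow (P : MrebPi p A H π) (T : MreTower p A ζ H σ) (hp : p.Prime)
    (hA : A.LiesOverPrime p) {y : Qb} (hy : MreFix H y) (hy0 : y ≠ 0) (hyA : y ∈ A) :
    ∃ n : ℕ, A.valuation y = A.valuation π ^ n := by
  obtain ⟨n, hn⟩ := T.ord hp hA hy hy0
  have hn0 : 0 ≤ n := (hn.mem_iff hp hA (mreb_e_ne hp)).mp hyA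
  refine ⟨n.toNat, ?_⟩
  have h1 := P.ord.pow n.toNat
  rw [mul_one, Int.toNat_of_nonneg hn0] at h1
  rw [← map_pow]
  exact (hn.val_eq_iff hp hA (mreb_e_ne hp) h1).mpr rfl

/-- `v (1 - ζ) = v π ^ p`. -/
theorem val_zeta (P : MrebPi p A H π) (T : MreTower p A ζ H σ) (hp : p.Prime)
    (hA : A.LiesOverPrime p) : A.valuation (1 - ζ) = A.valuation π ^ p := by
  have h1 := P.ord.pow p
  rw [mul_one] at h1
  rw [← map_pow]
  exact ((mreb_ord_zeta T hp).val_eq_iff hp hA (mreb_e_ne hp) h1).mpr rfl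

end MrebPi

/-! ## the break -/

/-- `σ π ≠ π`, and `v (σ y - y) ≤ v (σ π - π)` for every `H`-fixed `y ∈ A`; `v (1 - ζ) ≤
v (σ π - π)`. -/
theorem mreb_break_basic (T : MreTower p A ζ H σ) (hp : p.Prime) (hA : A.LiesOverPrime p)
    {π : Qb} (P : MrebPi p A H π)
    {τ : Qb} (hτH : MreFix H τ) (hτm : τ ∈ A.nonunits)
    (hτσ : A.valuation (σ τ - τ) = A.valuation (1 - ζ)) :
    σ π - π ≠ 0 ∧ (∀ y : Qb, MreFix H y → y ∈ A → A.valuation (σ y - y) ≤ A.valuation (σ π - π)) ∧
      A.valuation (1 - ζ) ≤ A.valuation (σ π - π) := by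
  have hπ0 := P.ne_zero hp
  have hπlt := P.val_lt hp hA
  have hπA := P.mem hp hA
  have hδ0 : σ π - π ≠ 0 := by
    intro h0
    have key := mreb_expand T hp hA P.fix hπ0 hπA P.unif (p + 1) τ hτH (A.nonunits_le hτm)
    rw [h0, map_zero, max_eq_right zero_le, hτσ, P.val_zeta T hp hA] at key
    exact absurd key (not_le.mpr (mreb_pow_lt hπ0 hπlt (Nat.lt_succ_self p)))
  have hδH : MreFix H (σ π - π) := (T.map_fix T.hσI P.fix).sub P.fix
  have hδA : σ π - π ∈ A := sub_mem ((mreo_mem_inertia T.hσI).mpr hπA) hπA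
  obtain ⟨N, hN⟩ := P.val_eq_pow T hp hA hδH hδ0 hδA
  have hB2 : ∀ y : Qb, MreFix H y → y ∈ A →
      A.valuation (σ y - y) ≤ A.valuation (σ π - π) := by
    intro y hy hyA
    have key := mreb_expand T hp hA P.fix hπ0 hπA P.unif N y hy hyA
    rwa [← hN, max_self] at key
  refine ⟨hδ0, hB2, ?_⟩
  rw [← hτσ]
  exact hB2 τ hτH (A.nonunits_le hτm)

/-! ## residues -/

open IsLocalRing in
open Classical in
/-- the residue of an element of `A` (and `0` outside `A`). -/
def mrebRes (A : ValuationSubring Qb) (y : Qb) : ResidueField A :=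
  if h : y ∈ A then residue A ⟨y, h⟩ else 0

section Res

open IsLocalRing

variable {x y : Qb}

theorem mrebRes_of_mem (hx : x ∈ A) : mrebRes A x = residue A ⟨x, hx⟩ := by
  unfold mrebRes; rw [dif_pos hx]

theorem mrebRes_add (hx : x ∈ A) (hy : y ∈ A) :
    mrebRes A (x + y) = mrebRes A x + mrebRes A y := by
  rw [mrebRes_of_mem hx, mrebRes_of_mem hy, mrebRes_of_mem (A.add_mem _ _ hx hy), ← map_add]
  rfl

theorem mrebRes_mul (hx : x ∈ A) (hy : y ∈ A) :
    mrebRes A (x * y) = mrebRes A x * mrebRes A y := by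
  rw [mrebRes_of_mem hx, mrebRes_of_mem hy, mrebRes_of_mem (A.mul_mem _ _ hx hy), ← map_mul]
  rfl

theorem mrebRes_one : mrebRes A 1 = 1 := by
  rw [mrebRes_of_mem A.one_mem]
  exact map_one (residue A)

theorem mrebRes_zero : mrebRes A 0 = 0 := by
  rw [mrebRes_of_mem A.zero_mem]
  exact map_zero (residue A)

theorem mrebRes_pow (hx : x ∈ A) (n : ℕ) : mrebRes A (x ^ n) = mrebRes A x ^ n := by
  induction n with
  | zero => rw [pow_zero, pow_zero, mrebRes_one]
  | succ n ih => rw [pow_succ, pow_succ, mrebRes_mul (pow_mem hx n) hx, ih]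

theorem mrebRes_natCast (n : ℕ) : mrebRes A (n : Qb) = (n : ResidueField A) := by
  rw [mrebRes_of_mem (natCast_mem A n)]
  have : (⟨(n : Qb), natCast_mem A n⟩ : A) = (n : A) := Subtype.ext (by simp)
  rw [this, map_natCast]

theorem mrebRes_eq_zero_iff (hx : x ∈ A) : mrebRes A x = 0 ↔ x ∈ A.nonunits := by
  rw [mrebRes_of_mem hx, residue_eq_zero_iff, ← ValuationSubring.coe_mem_nonunits_iff]

theorem mrebRes_eq_iff (hx : x ∈ A) (hy : y ∈ A) :
    mrebRes A x = mrebRes A y ↔ x - y ∈ A.nonunits := by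
  rw [← mrebRes_eq_zero_iff (sub_mem hx hy)]
  have : x - y = x + (-1) * y := by ring
  rw [this, mrebRes_add hx (A.mul_mem _ _ (A.neg_mem _ A.one_mem) hy),
    mrebRes_mul (A.neg_mem _ A.one_mem) hy]
  have h1 : mrebRes A (-1) = -1 := by
    rw [mrebRes_of_mem (A.neg_mem _ A.one_mem)]
    have : (⟨(-1 : Qb), A.neg_mem _ A.one_mem⟩ : A) = -1 := Subtype.ext (by simp)
    rw [this, map_neg, map_one]
  rw [h1, neg_one_mul, ← sub_eq_add_neg, sub_eq_zero]

theorem mrebRes_inertia {g : GQ} (hg : g ∈ A.inertiaSubgroupIn ℚ) (hx : x ∈ A) :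
    mrebRes A (g x) = mrebRes A x :=
  (mrebRes_eq_iff ((mreo_mem_inertia hg).mpr hx) hx).mpr (mreo_sub_inertia hg hx)

theorem mrebRes_prod {ι : Type*} (s : Finset ι) (f : ι → Qb) (hf : ∀ i ∈ s, f i ∈ A) :
    mrebRes A (∏ i ∈ s, f i) = ∏ i ∈ s, mrebRes A (f i) := by
  classical
  induction s using Finset.induction_on with
  | empty => simp [mrebRes_one]
  | insert a s ha ih =>
    rw [Finset.prod_insert ha, Finset.prod_insert ha,
      mrebRes_mul (hf a (Finset.mem_insert_self a s))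
        (prod_mem fun i hi => hf i (Finset.mem_insert_of_mem hi)),
      ih fun i hi => hf i (Finset.mem_insert_of_mem hi)]

/-- an element of valuation `1` lies in `A`, with inverse in `A`. -/
theorem mreb_mem_of_val_one (h : A.valuation x = 1) : x ∈ A :=
  (A.valuation_le_one_iff _).mp h.le

theorem mrebRes_inv (h : A.valuation x = 1) : mrebRes A x⁻¹ * mrebRes A x = 1 := by
  have hx0 : x ≠ 0 := fun h0 => by rw [h0, map_zero] at h; exact zero_ne_one h
  have hinv : A.valuation x⁻¹ = 1 := by rw [map_inv₀, h, inv_one]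
  rw [← mrebRes_mul (mreb_mem_of_val_one hinv) (mreb_mem_of_val_one h), inv_mul_cancel₀ hx0,
    mrebRes_one]

end Res

/-! ## `v (σ π - π) < v π` -/

/-- telescoping: `∏_{k < n} σ^k (σ π / π) = σ^n π / π`. -/
theorem mreb_telescope (σ : GQ) {π : Qb} (hπ0 : π ≠ 0) (n : ℕ) :
    ∏ k ∈ Finset.range n, (σ ^ k) (σ π / π) = (σ ^ n) π / π := by
  induction n with
  | zero => simp [hπ0]
  | succ n ih =>
    rw [Finset.prod_range_succ, ih, map_div₀]
    have h1 : (σ ^ n) (σ π) = (σ ^ (n + 1)) π := by rw [pow_succ, AlgEquiv.mul_apply]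
    have h2 : (σ ^ n) π ≠ 0 := (map_ne_zero _).mpr hπ0
    rw [h1]
    field_simp

theorem mreb_delta_lt (T : MreTower p A ζ H σ) (hp : p.Prime) (hA : A.LiesOverPrime p)
    {π : Qb} (P : MrebPi p A H π) : A.valuation (σ π - π) < A.valuation π := by
  haveI : Fact p.Prime := ⟨hp⟩
  haveI : CharP (IsLocalRing.ResidueField A) p := ffiw_charP A hA
  have hπ0 := P.ne_zero hp
  set u := σ π / π with hu
  have hvu : A.valuation u = 1 := by
    rw [hu, map_div₀, mreo_val_inertia T.hσI, div_self ((A.valuation.ne_zero_iff).mpr hπ0)]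
  have huA : u ∈ A := mreb_mem_of_val_one hvu
  have hprod : ∏ k ∈ Finset.range p, (σ ^ k) u = 1 := by
    rw [hu, mreb_telescope σ hπ0 p, P.fix _ T.hσp, div_self hπ0]
  have hres : mrebRes A u ^ p = 1 := by
    have h1 := congrArg (mrebRes A) hprod
    rw [mrebRes_prod _ _ fun k _ => (mreo_mem_inertia (T.pow_mem_I k)).mpr huA, mrebRes_one,
      Finset.prod_congr rfl fun k _ => mrebRes_inertia (T.pow_mem_I k) huA, Finset.prod_const,
      Finset.card_range] at h1
    exact h1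
  have hres1 : mrebRes A u = 1 := by
    have h2 : (mrebRes A u - 1) ^ p = 0 := by rw [sub_pow_char, hres, one_pow, sub_self]
    exact sub_eq_zero.mp (pow_eq_zero_iff hp.ne_zero |>.mp h2)
  have hsub : u - 1 ∈ A.nonunits := by
    rw [← mrebRes_eq_iff huA A.one_mem, hres1, mrebRes_one]
  have e : σ π - π = π * (u - 1) := by rw [hu]; field_simp
  rw [e, map_mul]
  calc A.valuation π * A.valuation (u - 1) < A.valuation π * 1 := by
        apply mul_lt_mul_of_pos_left ((ValuationSubring.mem_nonunits_iff (A := A)).mp hsub)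
        exact zero_lt_iff.mpr ((A.valuation.ne_zero_iff).mpr hπ0)
    _ = _ := mul_one _

/-! ## second order estimates -/

section Second

variable {π : Qb}

/-- (D-a): for `H`-fixed `z` with `v z ≤ v π ^ 2`: `v (σ z - z) ≤ v (σ π - π) v π`. -/
theorem mreb_Da (T : MreTower p A ζ H σ) (hp : p.Prime) (hA : A.LiesOverPrime p)
    (P : MrebPi p A H π)
    (hB2 : ∀ y : Qb, MreFix H y → y ∈ A → A.valuation (σ y - y) ≤ A.valuation (σ π - π))
    {z : Qb} (hz : MreFix H z) (hzv : A.valuation z ≤ A.valuation π ^ 2) :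
    A.valuation (σ z - z) ≤ A.valuation (σ π - π) * A.valuation π := by
  have hπ0 := P.ne_zero hp
  have hπA := P.mem hp hA
  have hπ1 : A.valuation π ≤ 1 := (P.val_lt hp hA).le
  have hvπ0 : A.valuation π ≠ 0 := (A.valuation.ne_zero_iff).mpr hπ0
  set y' := z / π ^ 2 with hy'
  have hy'A : y' ∈ A := by
    rw [← A.valuation_le_one_iff, hy', map_div₀, map_pow]
    exact div_le_one_of_le₀ hzv zero_le
  have hy'H : MreFix H y' := hz.div (P.fix.pow 2)
  have hz' : z = π ^ 2 * y' := by rw [hy']; field_simp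
  have e : σ z - z = (σ π - π) * ((σ π + π) * σ y') + π ^ 2 * (σ y' - y') := by
    rw [hz', map_mul, map_pow]; ring
  rw [e]
  have hσπ : A.valuation (σ π) = A.valuation π := mreo_val_inertia T.hσI π
  have h1 : A.valuation ((σ π - π) * ((σ π + π) * σ y')) ≤
      A.valuation (σ π - π) * A.valuation π := by
    rw [map_mul, map_mul]
    have h2 : A.valuation (σ π + π) ≤ A.valuation π :=
      (A.valuation.map_add _ _).trans (max_le hσπ.le le_rfl)
    have h3 : A.valuation (σ y') ≤ 1 :=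
      (A.valuation_le_one_iff _).mpr ((mreo_mem_inertia T.hσI).mpr hy'A)
    calc A.valuation (σ π - π) * (A.valuation (σ π + π) * A.valuation (σ y'))
        ≤ A.valuation (σ π - π) * (A.valuation π * 1) := by gcongr
      _ = _ := by rw [mul_one]
  have h2 : A.valuation (π ^ 2 * (σ y' - y')) ≤ A.valuation (σ π - π) * A.valuation π := by
    rw [map_mul, map_pow, pow_two, mul_comm (A.valuation (σ π - π))]
    calc A.valuation π * A.valuation π * A.valuation (σ y' - y')
        ≤ A.valuation π * 1 * A.valuation (σ π - π) := by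
          gcongr
          exact hB2 y' hy'H hy'A
      _ = _ := by rw [mul_one]
  exact (A.valuation.map_add _ _).trans (max_le h1 h2)

/-- (D-b): `σ^a π ≡ π + a (σ π - π)` to second order. -/
theorem mreb_Db (T : MreTower p A ζ H σ) (hp : p.Prime) (hA : A.LiesOverPrime p)
    (P : MrebPi p A H π)
    (hB2 : ∀ y : Qb, MreFix H y → y ∈ A → A.valuation (σ y - y) ≤ A.valuation (σ π - π))
    (hδ2 : A.valuation (σ π - π) ≤ A.valuation π ^ 2) (a : ℕ) :
    A.valuation ((σ ^ a) π - π - a * (σ π - π)) ≤ A.valuation (σ π - π) * A.valuation π := by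
  induction a with
  | zero => simp
  | succ a ih =>
    have hδH : MreFix H (σ π - π) := (T.map_fix T.hσI P.fix).sub P.fix
    have hDa := mreb_Da T hp hA P hB2 hδH hδ2
    have e : (σ ^ (a + 1)) π - π - ((a + 1 : ℕ) : Qb) * (σ π - π) =
        σ ((σ ^ a) π - π - a * (σ π - π)) + a * (σ (σ π - π) - (σ π - π)) := by
      rw [pow_succ', AlgEquiv.mul_apply, map_sub, map_sub, map_mul, map_natCast, map_sub]
      push_cast
      ring
    rw [e]
    refine (A.valuation.map_add _ _).trans (max_le ?_ ?_)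
    · rw [mreo_val_inertia T.hσI]; exact ih
    · rw [map_mul]
      calc A.valuation (a : Qb) * A.valuation (σ (σ π - π) - (σ π - π))
          ≤ 1 * (A.valuation (σ π - π) * A.valuation π) := by
            gcongr
            exact (A.valuation_le_one_iff _).mpr (natCast_mem A a)
        _ = _ := one_mul _

/-- (D-c): for `H`-fixed `y` with `v y = v π`: `σ y - y ≡ (y / π) (σ π - π)` to second order. -/
theorem mreb_Dc (T : MreTower p A ζ H σ) (hp : p.Prime) (hA : A.LiesOverPrime p)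
    (P : MrebPi p A H π)
    (hB2 : ∀ y : Qb, MreFix H y → y ∈ A → A.valuation (σ y - y) ≤ A.valuation (σ π - π))
    {y : Qb} (hy : MreFix H y) (hyv : A.valuation y = A.valuation π) :
    A.valuation (σ y - y - y / π * (σ π - π)) ≤ A.valuation (σ π - π) * A.valuation π := by
  have hπ0 := P.ne_zero hp
  have hvπ0 : A.valuation π ≠ 0 := (A.valuation.ne_zero_iff).mpr hπ0
  set u := y / π with hu
  have hvu : A.valuation u = 1 := by rw [hu, map_div₀, hyv, div_self hvπ0]
  have huA : u ∈ A := mreb_mem_of_val_one hvu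
  have huH : MreFix H u := hy.div P.fix
  have hy' : y = u * π := by rw [hu]; field_simp
  have e : σ y - y - u * (σ π - π) = (σ u - u) * ((σ π - π) + π) := by
    rw [hy', map_mul]; ring
  rw [e, map_mul]
  have h1 : A.valuation ((σ π - π) + π) ≤ A.valuation π := by
    rw [sub_add_cancel, mreo_val_inertia T.hσI]
  calc A.valuation (σ u - u) * A.valuation ((σ π - π) + π)
      ≤ A.valuation (σ π - π) * A.valuation π := by
        gcongr
        exact hB2 u huH huA

end Second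

/-! ## the conjugation argument -/

/-- for a unit `c` of `A` and `g ∈ I`: `g c / c ≡ 1`. -/
theorem mrebRes_inertia_div {g : GQ} (hg : g ∈ A.inertiaSubgroupIn ℚ) {c : Qb}
    (hc : A.valuation c = 1) : A.valuation (g c / c) = 1 ∧ mrebRes A (g c / c) = 1 := by
  have hc0 : c ≠ 0 := fun h0 => by rw [h0, map_zero] at hc; exact zero_ne_one hc
  have hcA : c ∈ A := mreb_mem_of_val_one hc
  have hv : A.valuation (g c / c) = 1 := by
    rw [map_div₀, mreo_val_inertia hg, hc, div_one]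
  refine ⟨hv, ?_⟩
  have hinv : A.valuation c⁻¹ = 1 := by rw [map_inv₀, hc, inv_one]
  rw [← mrebRes_one (A := A), mrebRes_eq_iff (mreb_mem_of_val_one hv) A.one_mem]
  have e : g c / c - 1 = (g c - c) * c⁻¹ := by field_simp
  rw [e, ValuationSubring.mem_nonunits_iff, map_mul, hinv, mul_one]
  exact (ValuationSubring.mem_nonunits_iff (A := A)).mp (mreo_sub_inertia hg hcA)

section Conj

variable {π : Qb}

theorem mreb_conj (T : MreTower p A ζ H σ) (hp : p.Prime) (hA : A.LiesOverPrime p)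
    (P : MrebPi p A H π)
    (hB2 : ∀ y : Qb, MreFix H y → y ∈ A → A.valuation (σ y - y) ≤ A.valuation (σ π - π))
    (hδ0 : σ π - π ≠ 0) {N : ℕ} (hN : A.valuation (σ π - π) = A.valuation π ^ N) (hN2 : 2 ≤ N)
    {g : GQ} (hg : g ∈ A.inertiaSubgroupIn ℚ) {a : ℕ} (hga : g ζ = ζ ^ a)
    {h : GQ} (hh : h ∈ H) (hconj : g * σ * g⁻¹ = σ ^ a * h) :
    ∃ t : IsLocalRing.ResidueField A, t ^ p = (a : IsLocalRing.ResidueField A) ∧
      t ^ (N - 1) = (a : IsLocalRing.ResidueField A) := by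
  have hπ0 := P.ne_zero hp
  have hπA := P.mem hp hA
  have hπlt := P.val_lt hp hA
  have hvπ0 : A.valuation π ≠ 0 := (A.valuation.ne_zero_iff).mpr hπ0
  have hvδ0 : A.valuation (σ π - π) ≠ 0 := (A.valuation.ne_zero_iff).mpr hδ0
  have hδ2 : A.valuation (σ π - π) ≤ A.valuation π ^ 2 := by
    rw [hN]; exact (mreb_pow_le_iff hπ0 hπlt).mpr hN2
  set δ := σ π - π with hδ
  -- the element `θ = g π / π`
  set θ := g π / π with hθ
  have hvθ : A.valuation θ = 1 := by
    rw [hθ, map_div₀, mreo_val_inertia hg, div_self hvπ0]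
  have hθA : θ ∈ A := mreb_mem_of_val_one hvθ
  have hθ0 : θ ≠ 0 := fun h0 => by rw [h0, map_zero] at hvθ; exact zero_ne_one hvθ
  have hgπ : g π = θ * π := by rw [hθ]; field_simp
  refine ⟨mrebRes A θ, ?_, ?_⟩
  · -- `t ^ p = a` from `1 - ζ = w π ^ p`
    set w := (1 - ζ) / π ^ p with hw
    have hvw : A.valuation w = 1 := by
      rw [hw, map_div₀, map_pow, P.val_zeta T hp hA, div_self (pow_ne_zero p hvπ0)]
    have hw0 : w ≠ 0 := fun h0 => by rw [h0, map_zero] at hvw; exact zero_ne_one hvw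
    have hζw : (1 : Qb) - ζ = w * π ^ p := by rw [hw]; field_simp
    obtain ⟨hv1, hr1⟩ := mrebRes_inertia_div hg hvw
    -- `g (1 - ζ) = (1 - ζ) G`
    set G := ∑ i ∈ Finset.range a, ζ ^ i with hG
    have hGA : G ∈ A := mret_geom_mem hp T.hζ a
    have h1 : g (1 - ζ) = (1 - ζ) * G := by
      rw [map_sub, map_one, hga, mret_one_sub_pow]
    have h2 : g (1 - ζ) = g w * (θ * π) ^ p := by
      rw [hζw, map_mul, map_pow, hgπ]
    have h3 : G = g w / w * θ ^ p := by
      have hζ0 : (1 : Qb) - ζ ≠ 0 := mret_one_sub_zeta_ne T.hζ1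
      have : (1 - ζ) * G = (1 - ζ) * (g w / w * θ ^ p) := by
        rw [← h1, h2, hζw]; field_simp; ring
      exact mul_left_cancel₀ hζ0 this
    have h4 : mrebRes A G = (a : IsLocalRing.ResidueField A) := by
      rw [← mrebRes_natCast (A := A) a, mrebRes_eq_iff hGA (natCast_mem A a)]
      exact mret_geom_sub hp hA T.hζ T.hζ1 a
    rw [← h4, h3, mrebRes_mul (mreb_mem_of_val_one hv1) (pow_mem hθA p), hr1, one_mul,
      mrebRes_pow hθA]
  · -- `t ^ (N - 1) = a` from the conjugation relation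
    set y := g⁻¹ π with hy
    have hgI : g⁻¹ ∈ A.inertiaSubgroupIn ℚ := inv_mem hg
    have hyH : MreFix H y := T.map_fix hgI P.fix
    have hyv : A.valuation y = A.valuation π := mreo_val_inertia hgI π
    have hgy : g y = π := by
      rw [hy, ← AlgEquiv.mul_apply, mul_inv_cancel, AlgEquiv.one_apply]
    have hDc := mreb_Dc T hp hA P hB2 hyH hyv
    have hDb := mreb_Db T hp hA P hB2 hδ2 a
    -- apply `g` to (D-c)
    have hgσy : g (σ y) = (σ ^ a) π := by
      have : g (σ y) = (g * σ * g⁻¹) π := by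
        rw [hy]; simp only [AlgEquiv.mul_apply]
      rw [this, hconj, AlgEquiv.mul_apply, P.fix h hh]
    have hgu : g (y / π) = θ⁻¹ := by
      rw [map_div₀, hgy, hθ, inv_div]
    have hgR : g (σ y - y - y / π * δ) = (σ ^ a) π - π - θ⁻¹ * g δ := by
      rw [map_sub, map_sub, map_mul, hgσy, hgy, hgu]
    have hvgR : A.valuation ((σ ^ a) π - π - θ⁻¹ * g δ) ≤ A.valuation δ * A.valuation π := by
      rw [← hgR, mreo_val_inertia hg]; exact hDc
    -- subtract (D-b)
    have hdiff : A.valuation ((a : Qb) * δ - θ⁻¹ * g δ) ≤ A.valuation δ * A.valuation π := by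
      have e : (a : Qb) * δ - θ⁻¹ * g δ =
          ((σ ^ a) π - π - θ⁻¹ * g δ) - ((σ ^ a) π - π - a * δ) := by ring
      rw [e]
      exact (A.valuation.map_sub _ _).trans (max_le hvgR hDb)
    -- the unit `c = δ / π ^ N`
    set c := δ / π ^ N with hc
    have hvc : A.valuation c = 1 := by
      rw [hc, map_div₀, map_pow, hN, div_self (pow_ne_zero N hvπ0)]
    have hδc : δ = c * π ^ N := by rw [hc]; field_simp
    obtain ⟨hv1, hr1⟩ := mrebRes_inertia_div hg hvc
    -- `q = θ⁻¹ g δ / δ = (g c / c) θ ^ (N - 1)`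
    have hq : θ⁻¹ * g δ / δ = g c / c * θ ^ (N - 1) := by
      have hc0 : c ≠ 0 := fun h0 => by rw [h0, map_zero] at hvc; exact zero_ne_one hvc
      have hN1 : N = (N - 1) + 1 := by omega
      rw [hδc, map_mul, map_pow, hgπ]
      conv_lhs => rw [hN1]
      field_simp
      ring
    have hqA : g c / c * θ ^ (N - 1) ∈ A := A.mul_mem _ _ (mreb_mem_of_val_one hv1) (pow_mem hθA _)
    have hsub : (a : Qb) - g c / c * θ ^ (N - 1) ∈ A.nonunits := by
      have e : (a : Qb) - g c / c * θ ^ (N - 1) = ((a : Qb) * δ - θ⁻¹ * g δ) / δ := by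
        rw [← hq]; field_simp
      rw [e, ValuationSubring.mem_nonunits_iff, map_div₀]
      calc A.valuation ((a : Qb) * δ - θ⁻¹ * g δ) / A.valuation δ
          ≤ A.valuation δ * A.valuation π / A.valuation δ := by
            rw [div_eq_mul_inv, div_eq_mul_inv]
            exact mul_le_mul_left hdiff _
        _ = A.valuation π := by field_simp
        _ < 1 := hπlt
    have h5 := (mrebRes_eq_iff (natCast_mem A a) hqA).mpr hsub
    rw [mrebRes_natCast, mrebRes_mul (mreb_mem_of_val_one hv1) (pow_mem hθA _), hr1, one_mul,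
      mrebRes_pow hθA] at h5
    exact h5.symm

end Conj

/-! ## the residue field algebra and the main theorem -/

/-- a primitive root modulo `p`, as a natural number. -/
theorem mreb_exists_primitive (hp : p.Prime) :
    ∃ a : ℕ, ¬ p ∣ a ∧ ∀ m : ℕ, (a : ZMod p) ^ m = 1 → (p - 1) ∣ m := by
  haveI : Fact p.Prime := ⟨hp⟩
  obtain ⟨g, hg⟩ := IsCyclic.exists_generator (α := (ZMod p)ˣ)
  have hord : orderOf g = p - 1 := by
    rw [orderOf_eq_card_of_forall_mem_zpowers hg, Nat.card_eq_fintype_card, ZMod.card_units]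
  refine ⟨(g : ZMod p).val, ?_, ?_⟩
  · intro hdvd
    have h0 : ((g : ZMod p).val : ZMod p) = 0 := (ZMod.natCast_eq_zero_iff _ _).mpr hdvd
    rw [ZMod.natCast_zmod_val] at h0
    exact g.ne_zero h0
  · intro m hm
    rw [ZMod.natCast_zmod_val] at hm
    have h1 : g ^ m = 1 := Units.ext (by rw [Units.val_pow_eq_pow_val, hm, Units.val_one])
    rw [← hord]
    exact orderOf_dvd_of_pow_eq_one h1

/-- `t ^ p = a`, `t ^ b = a` in a field of characteristic `p`, `a` a primitive root modulo `p`,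
force `(p - 1) ∣ b - 1`. -/
theorem mreb_alg (hp : p.Prime) {k : Type*} [Field k] [CharP k p] {a b : ℕ} (hb : 1 ≤ b)
    (ha : ¬ p ∣ a) (hprim : ∀ m : ℕ, (a : ZMod p) ^ m = 1 → (p - 1) ∣ m)
    {t : k} (h1 : t ^ p = (a : k)) (h2 : t ^ b = (a : k)) : (p - 1) ∣ (b - 1) := by
  haveI : Fact p.Prime := ⟨hp⟩
  have ha0 : (a : k) ≠ 0 := fun h => ha ((CharP.cast_eq_zero_iff k p a).mp h)
  have haZ : (a : ZMod p) ≠ 0 := fun h => ha ((ZMod.natCast_eq_zero_iff _ _).mp h)
  -- transfer of power identities between `ZMod p` and `k`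
  have htrans : ∀ m : ℕ, (a : k) ^ m = 1 ↔ (a : ZMod p) ^ m = 1 := by
    intro m
    have e1 : (a : k) ^ m = ((a ^ m : ℕ) : k) := by push_cast; rfl
    have e2 : (a : ZMod p) ^ m = ((a ^ m : ℕ) : ZMod p) := by push_cast; rfl
    have e3 : (1 : k) = ((1 : ℕ) : k) := by simp
    have e4 : (1 : ZMod p) = ((1 : ℕ) : ZMod p) := by simp
    rw [e1, e2, e3, e4, CharP.natCast_eq_natCast k p, ZMod.natCast_eq_natCast_iff]
  have hfermat : (a : k) ^ (p - 1) = 1 :=
    (htrans _).mpr (ZMod.pow_card_sub_one_eq_one haZ)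
  have h3 : (t ^ (p - 1)) ^ p = 1 := by
    rw [← pow_mul, mul_comm, pow_mul, h1, hfermat]
  have h4 : t ^ (p - 1) = 1 := by
    have : (t ^ (p - 1) - 1) ^ p = 0 := by rw [sub_pow_char, h3, one_pow, sub_self]
    exact sub_eq_zero.mp (pow_eq_zero_iff hp.ne_zero |>.mp this)
  have h5 : t = (a : k) := by
    have hp1 : p = (p - 1) + 1 := by have := hp.one_lt; omega
    have : t ^ p = t := by
      conv_lhs => rw [hp1]
      rw [pow_succ, h4, one_mul]
    rw [← this, h1]
  have h6 : (a : k) ^ (b - 1) = 1 := by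
    have hb1 : b = (b - 1) + 1 := by omega
    rw [h5, hb1, pow_succ] at h2
    have : (a : k) ^ (b - 1) * (a : k) = 1 * (a : k) := by rw [one_mul]; exact h2
    exact mul_right_cancel₀ ha0 this
  exact hprim _ ((htrans _).mp h6)

/-- **(P1): the ramification break of `ℚ̄^H / ℚ̄^{I₀}` is `1`.** -/
theorem mreb_main (T : MreTower p A ζ H σ) (hp : p.Prime) (hA : A.LiesOverPrime p)
    (hconj : ∀ g ∈ A.inertiaSubgroupIn ℚ, ∀ a : ℕ, g ζ = ζ ^ a →
      ∃ h ∈ H, g * σ * g⁻¹ = σ ^ a * h)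
    {τ : Qb} (hτH : MreFix H τ) (hτm : τ ∈ A.nonunits)
    (hτσ : A.valuation (σ τ - τ) = A.valuation (1 - ζ)) :
    ∃ π : Qb, MrebPi p A H π ∧ A.valuation (σ π - π) = A.valuation π ^ 2 ∧
      ∀ y : Qb, MreFix H y → y ∈ A → A.valuation (σ y - y) ≤ A.valuation π ^ 2 := by
  haveI : Fact p.Prime := ⟨hp⟩
  haveI : CharP (IsLocalRing.ResidueField A) p := ffiw_charP A hA
  obtain ⟨π, hπH, hπord, hπU⟩ := mreb_exists_unif T hp hA hτH hτm hτσ
  have P : MrebPi p A H π := ⟨hπH, hπord, hπU⟩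
  obtain ⟨hδ0, hB2, hζδ⟩ := mreb_break_basic T hp hA P hτH hτm hτσ
  have hπ0 := P.ne_zero hp
  have hπlt := P.val_lt hp hA
  have hπA := P.mem hp hA
  have hδH : MreFix H (σ π - π) := (T.map_fix T.hσI P.fix).sub P.fix
  have hδA : σ π - π ∈ A := sub_mem ((mreo_mem_inertia T.hσI).mpr hπA) hπA
  obtain ⟨N, hN⟩ := P.val_eq_pow T hp hA hδH hδ0 hδA
  have hNp : N ≤ p := by
    rw [P.val_zeta T hp hA, hN] at hζδ
    exact (mreb_pow_le_iff hπ0 hπlt).mp hζδ
  have hN2 : 2 ≤ N := by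
    have h1 := mreb_delta_lt T hp hA P
    rw [hN] at h1
    by_contra hcon
    have hN1 : N ≤ 1 := by omega
    have h2 : A.valuation π ^ 1 ≤ A.valuation π ^ N := (mreb_pow_le_iff hπ0 hπlt).mpr hN1
    rw [pow_one] at h2
    exact absurd h1 (not_lt.mpr h2)
  obtain ⟨a, ha, hprim⟩ := mreb_exists_primitive hp
  obtain ⟨g, hg, hga⟩ := mret_exists_pow hp hA T.hζ T.hζ1 ha
  obtain ⟨h, hh, hc⟩ := hconj g hg a hga
  obtain ⟨t, ht1, ht2⟩ := mreb_conj T hp hA P hB2 hδ0 hN hN2 hg hga hh hc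
  have hdvd := mreb_alg hp (b := N - 1) (by omega) ha hprim ht1 ht2
  have hN' : N = 2 := by
    have h2 := hp.two_le
    rcases Nat.eq_zero_or_pos (N - 1 - 1) with h0 | hpos
    · omega
    · have := Nat.le_of_dvd hpos hdvd
      omega
  subst hN'
  exact ⟨π, P, hN, fun y hy hyA => (hB2 y hy hyA).trans hN.le⟩

end Fermat.Agent.MR
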