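import Mathlib
import Fermat.Prelude.Def_FLTPrelim_FreyPackage
import Fermat.Prelude.Def_FLTPrelim_GaloisRep
import Fermat.Prelude.Def_FLTPrelim_Ramification
import Fermat.Agent.S05.KerRed
import Fermat.Agent.MR.E.Break

/-!
# PROGRAM MR (S44), BLOCK `mre` (E-SIDE): THE INTERFACE

Owner: helper10.  Namespace `Fermat.Agent.MR`, prefix `mre`.

`A` a place of `ℚ̄` over `p`, `I := A.inertiaSubgroupIn ℚ`, `W := ffiwRing A = A^I`, `ζ` a primitive
`p`-th root of unity, `I₀ := {g ∈ I | g ζ = ζ}`.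

* `MreFix H y` (in `Tower.lean`) : `y` is fixed by `H`, i.e. `y ∈ L := ℚ̄^H`;
* `MreP1 p A H σ π c` : **THE OUTPUT (P1)** = lower ramification break `1` of `L / ℚ̄^{I₀}`, in the
  form consumed by the J-side (`mrg`, `mrr`);
* `mreStab A ζ V` : the pointwise stabiliser of `ζ` and of the Galois module `V` in `I`;
* `MreIntegSpec p` : the abstract integration arrow (module shape + `z`-coordinate + `τ` ⟹ (P1));
* `MreShapeSpec P`, `MreTauSpec P` : the two curve inputs (e1) (helper27) and (e2) (helper13) for the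
  Frey curve at `p ∣ abc`;
* `MreP1Spec P` : the block output for the Frey curve.
-/

set_option autoImplicit false
set_option linter.unusedSectionVars false
set_option linter.unusedVariables false

noncomputable section

namespace Fermat.Agent.MR

open WeierstrassCurve WeierstrassCurve.Affine WeierstrassCurve.Affine.Point
open Fermat.Agent.FF Fermat.Agent.S05

local notation "Qb" => AlgebraicClosure ℚ
local notation "GQ" => (AlgebraicClosure ℚ ≃ₐ[ℚ] AlgebraicClosure ℚ)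

/-- **(P1)**: `π` is an `H`-fixed uniformiser of `L = ℚ̄^H` (`vg`, `ram`), `c ∈ W` a unit,
`σ π ≡ π (1 + c π)` modulo `π³` (`pic`), `σ` is trivial on `O_L / π²` (`triv`), and
`σ y ≡ y (1 + c n π)` modulo `y π²` for `v y = v π ^ n` (`move`). -/
structure MreP1 (p : ℕ) (A : ValuationSubring Qb) (H : Subgroup GQ) (σ : GQ) (π c : Qb) :
    Prop where
  fix : MreFix H π
  ne : π ≠ 0
  lt : A.valuation π < 1
  vg : ∀ y : Qb, MreFix H y → y ≠ 0 → ∃ n : ℤ, A.valuation y = A.valuation π ^ n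
  ram : A.valuation π ^ (p * (p - 1)) = A.valuation (p : Qb)
  cW : c ∈ ffiwRing A
  cu : A.valuation c = 1
  pic : A.valuation (σ π - π * (1 + c * π)) ≤ A.valuation π ^ 3
  triv : ∀ y : Qb, MreFix H y → y ∈ A → A.valuation (σ y - y) ≤ A.valuation π ^ 2
  move : ∀ y : Qb, MreFix H y → ∀ n : ℤ, A.valuation y = A.valuation π ^ n →
    A.valuation (σ y - y * (1 + c * (n : Qb) * π)) ≤ A.valuation y * A.valuation π ^ 2

/-- the pointwise stabiliser of `ζ` and of a Galois module `V` inside the inertia group. -/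
def mreStab (A : ValuationSubring Qb) (ζ : Qb) (V : Type) [MulAction GQ V] : Subgroup GQ where
  carrier := {g | g ∈ A.inertiaSubgroupIn ℚ ∧ g ζ = ζ ∧ ∀ x : V, g • x = x}
  one_mem' := ⟨one_mem _, rfl, fun x => one_smul _ x⟩
  mul_mem' := fun {g h} hg hh => ⟨mul_mem hg.1 hh.1, by
    rw [AlgEquiv.mul_apply, hh.2.1, hg.2.1], fun x => by rw [mul_smul, hh.2.2 x, hg.2.2 x]⟩
  inv_mem' := fun {g} hg => ⟨inv_mem hg.1, by
    have h : g⁻¹ (g ζ) = g⁻¹ ζ := congrArg (fun y => g⁻¹ y) hg.2.1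
    rw [← AlgEquiv.mul_apply, inv_mul_cancel, AlgEquiv.one_apply] at h
    exact h.symm, fun x => by
    have h : g⁻¹ • (g • x) = g⁻¹ • x := congrArg (fun y => g⁻¹ • y) (hg.2.2 x)
    rw [inv_smul_smul] at h
    exact h.symm⟩

theorem mem_mreStab {A : ValuationSubring Qb} {ζ : Qb} {V : Type} [MulAction GQ V] {g : GQ} :
    g ∈ mreStab A ζ V ↔ g ∈ A.inertiaSubgroupIn ℚ ∧ g ζ = ζ ∧ ∀ x : V, g • x = x := Iff.rfl

/-- **THE ABSTRACT INTEGRATION ARROW** (helper10): a Galois module `V` with `#V ≤ p²`, a proper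
non-zero submodule `V'` with `I` trivial on `V / V'`, a `z`-coordinate on `V'` (`I`-equivariant,
additive to second order, `v (z t) ^ (p - 1) = v p` off `0`), an element `σ ∈ I₀` moving `P₀`, and an
`I ∩ Stab(P₀)`-fixed `τ ∈ 𝔪_A` with `v (σ τ - τ) = v (z (σ P₀ - P₀))` give (P1) for the pointwise
stabiliser of `ζ` and `V`. -/
def MreIntegSpec (p : ℕ) : Prop :=
  p.Prime → ∀ (A : ValuationSubring Qb), A.LiesOverPrime p → ∀ (ζ : Qb), ζ ^ p = 1 → ζ ≠ 1 →
    ∀ (V : Type) [AddCommGroup V] [Module (ZMod p) V] [DistribMulAction GQ V],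
      Nat.card V ≤ p ^ 2 → Finite V →
    ∀ (V' : Submodule (ZMod p) V), V' ≠ ⊥ → V' ≠ ⊤ →
      (∀ g ∈ A.inertiaSubgroupIn ℚ, ∀ x : V, g • x - x ∈ V') →
    ∀ (z : V → Qb),
      (∀ g ∈ A.inertiaSubgroupIn ℚ, ∀ t ∈ V', z (g • t) = g (z t)) →
      (∀ t ∈ V', ∀ k : ℕ, A.valuation (z (k • t) - (k : Qb) * z t) ≤ A.valuation (z t) ^ 2) →
      (∀ t ∈ V', t ≠ 0 → A.valuation (z t) ^ (p - 1) = A.valuation (p : Qb)) →
    ∀ (σ : GQ), σ ∈ A.inertiaSubgroupIn ℚ → σ ζ = ζ → ∀ (P₀ : V), σ • P₀ ≠ P₀ →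
      (∃ τ : Qb, (∀ g ∈ A.inertiaSubgroupIn ℚ, g • P₀ = P₀ → g τ = τ) ∧ τ ∈ A.nonunits ∧
        A.valuation (σ τ - τ) = A.valuation (z (σ • P₀ - P₀))) →
    ∃ π c : Qb, MreP1 p A (mreStab A ζ V) σ π c

/-! ## the Frey curve -/

/-- the `p`-torsion of the Frey curve over `ℚ̄`. -/
abbrev mreTors (P : FreyPackage) : Type :=
  Submodule.torsionBy ℤ (P.freyCurve⁄Qb).Point P.p

/-- **(e1) THE SHAPE AT `p ∣ abc`** (helper27): inertia moves `E[p]` inside the kernel of reduction,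
not all of `E[p]` lies in the kernel of reduction, and `v (z T) ^ (p - 1) = v p` for the non-zero
`p`-torsion points of the kernel of reduction. -/
def MreShapeSpec (P : FreyPackage) : Prop :=
  ∀ A : ValuationSubring Qb, A.LiesOverPrime P.p → (P.p : ℤ) ∣ P.a * P.b * P.c →
    (∀ σ ∈ A.inertiaSubgroupIn ℚ, ∀ x : mreTors P,
      InKerRed A (P.freyCurve⁄Qb) ((σ • x - x : mreTors P) : (P.freyCurve⁄Qb).Point)) ∧
    (∃ x : mreTors P, ¬ InKerRed A (P.freyCurve⁄Qb) (x : (P.freyCurve⁄Qb).Point)) ∧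
    (∀ x : mreTors P, x ≠ 0 → InKerRed A (P.freyCurve⁄Qb) (x : (P.freyCurve⁄Qb).Point) →
      A.valuation (zCoord (P.freyCurve⁄Qb) (x : (P.freyCurve⁄Qb).Point)) ^ (P.p - 1) =
        A.valuation (P.p : Qb))

/-- **(e2) THE ELEMENT `τ`** (helper13: (M1) + (M2) + (E3-node)): for a `p`-torsion point `P₀` outside
the kernel of reduction and `σ ∈ I` moving it, an element `τ ∈ 𝔪_A` fixed by `I ∩ Stab(P₀)` with
`v (σ τ - τ) = v (z (σ P₀ - P₀))`  (`τ = x(P₀) / c₀ - r₀` in the model with the node at `x = 0`). -/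
def MreTauSpec (P : FreyPackage) : Prop :=
  ∀ A : ValuationSubring Qb, A.LiesOverPrime P.p → (P.p : ℤ) ∣ P.a * P.b * P.c →
    ∀ (P₀ : mreTors P), ¬ InKerRed A (P.freyCurve⁄Qb) (P₀ : (P.freyCurve⁄Qb).Point) →
    ∀ σ ∈ A.inertiaSubgroupIn ℚ, σ • P₀ ≠ P₀ →
      ∃ τ : Qb, (∀ g ∈ A.inertiaSubgroupIn ℚ, g • P₀ = P₀ → g τ = τ) ∧ τ ∈ A.nonunits ∧
        A.valuation (σ τ - τ) =
          A.valuation (zCoord (P.freyCurve⁄Qb) ((σ • P₀ - P₀ : mreTors P) : (P.freyCurve⁄Qb).Point))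

/-- **THE BLOCK OUTPUT**: (P1) for the field cut out by `E[p]` over `ℚ̄^{I₀}`, for every `σ ∈ I₀`
acting non-trivially on `E[p]`. -/
def MreP1Spec (P : FreyPackage) : Prop :=
  ∀ A : ValuationSubring Qb, A.LiesOverPrime P.p → (P.p : ℤ) ∣ P.a * P.b * P.c →
    ∀ ζ : Qb, ζ ^ P.p = 1 → ζ ≠ 1 →
    ∀ σ ∈ A.inertiaSubgroupIn ℚ, σ ζ = ζ → (∃ x : mreTors P, σ • x ≠ x) →
      ∃ π c : Qb, MreP1 P.p A (mreStab A ζ (mreTors P)) σ π c

end Fermat.Agent.MR
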