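import Mathlib
import Fermat.Agent.MR.E.Spec

/-!
# PROGRAM MR, E-side, leaf (P1) : the OUTPUT literal of block `mre`

Owner: helper4 (on top of helper10's `mreb_main`).  Namespace `Fermat.Agent.MR`, prefix `mrep`.

In the tower of `Tower.lean` (`L` = the `H`-fixed elements of `ℚ̄`, `W = A^I = ffiwRing A`), under the
hypotheses of `mreb_main` :

* `mrep_P1` : `∃ π c, MreP1 p A H σ π c` for helper10's interface structure `MreP1` (`MR/E/Spec.lean`) :
  `π` an `H`-fixed uniformiser (`v(L^×) = v(π)^ℤ`, `v(π)^(p(p-1)) = v(p)`), `c ∈ W` a unit, and the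
  lower ramification break of `σ` is `1` with first-order term `c` :
  `σ y ≡ y (1 + c n π) mod y π²` for `v(y) = v(π)^n`; `σ` is trivial on `O_L/π²`;
  `σ π ≡ π (1 + c π) mod π³`;
* derived from `MreP1` alone : `mrep_unif` (`π` divides every `H`-fixed element of `𝔪_A`),
  `mrep_shift` (`v(σ y - y) ≤ v(y) v(π)`), and for `σ ∈ I`, `H ≤ I`, `σ L ⊆ L` :
  `mrep_second` = the second-order form `σ²(y) y ≡ σ(y)² (1 + c² n π²) mod y² π³`.
-/

set_option autoImplicit false
set_option linter.style.haveILetI false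
set_option linter.unusedSectionVars false
set_option linter.unusedVariables false

noncomputable section

namespace Fermat.Agent.MR

open Fermat.Agent.FF Fermat.Agent.TT Fermat.Agent.S05

local notation "Qb" => AlgebraicClosure ℚ
local notation "GQ" => (AlgebraicClosure ℚ ≃ₐ[ℚ] AlgebraicClosure ℚ)

/-! ### generic valuation lemmas : `(1 + x) ^ n` to first order -/

section Generic

variable {K : Type*} [Field K]
variable {Γ₀ : Type*} [LinearOrderedCommGroupWithZero Γ₀] (v : Valuation K Γ₀)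

theorem mrep_val_nat_le (n : ℕ) : v (n : K) ≤ 1 := by
  induction n with
  | zero => simp
  | succ n ih =>
    rw [Nat.cast_succ]
    exact (v.map_add _ _).trans (max_le ih (by rw [v.map_one]))

theorem mrep_val_int_le (n : ℤ) : v (n : K) ≤ 1 := by
  cases n with
  | ofNat m => simpa using mrep_val_nat_le v m
  | negSucc m =>
    rw [Int.cast_negSucc, v.map_neg]
    exact mrep_val_nat_le v (m + 1)

theorem mrep_val_one_add {x : K} (hx : v x < 1) : v (1 + x) = 1 := by
  have := v.map_add_eq_of_lt_left (x := 1) (y := x) (by rw [v.map_one]; exact hx)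
  rw [this, v.map_one]

theorem mrep_one_add_pow_sub {x : K} (hx : v x < 1) (n : ℕ) : v ((1 + x) ^ n - 1) ≤ v x := by
  induction n with
  | zero => simp
  | succ n ih =>
    have : (1 + x) ^ (n + 1) - 1 = ((1 + x) ^ n - 1) * (1 + x) + x := by ring
    rw [this]
    refine (v.map_add _ _).trans (max_le ?_ le_rfl)
    rw [v.map_mul, mrep_val_one_add v hx, mul_one]
    exact ih

theorem mrep_one_add_pow_sub_sub {x : K} (hx : v x < 1) (n : ℕ) :
    v ((1 + x) ^ n - 1 - (n : K) * x) ≤ v x ^ 2 := by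
  induction n with
  | zero => simp
  | succ n ih =>
    have : (1 + x) ^ (n + 1) - 1 - ((n + 1 : ℕ) : K) * x =
        (1 + x) * ((1 + x) ^ n - 1 - (n : K) * x) + (n : K) * x ^ 2 := by
      push_cast; ring
    rw [this]
    refine (v.map_add _ _).trans (max_le ?_ ?_)
    · rw [v.map_mul, mrep_val_one_add v hx, one_mul]
      exact ih
    · rw [v.map_mul, v.map_pow]
      exact mul_le_of_le_one_left' (mrep_val_nat_le v n)

/-- `(1 + x) ^ n ≡ 1 + n x mod x ^ 2` for `n : ℤ`, `v x < 1`. -/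
theorem mrep_one_add_zpow_sub_sub {x : K} (hx : v x < 1) (n : ℤ) :
    v ((1 + x) ^ n - 1 - (n : K) * x) ≤ v x ^ 2 := by
  cases n with
  | ofNat m => simpa using mrep_one_add_pow_sub_sub v hx m
  | negSucc m =>
    rw [zpow_negSucc, Int.cast_negSucc]
    set y := (1 + x) ^ (m + 1) with hy
    have hyv : v y = 1 := by rw [hy, v.map_pow, mrep_val_one_add v hx, one_pow]
    have hy0 : y ≠ 0 := by
      intro h; rw [h, map_zero] at hyv; exact zero_ne_one hyv
    have : y⁻¹ - 1 - (-((m + 1 : ℕ) : K)) * x =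
        y⁻¹ * (-(y - 1 - ((m + 1 : ℕ) : K) * x) + ((m + 1 : ℕ) : K) * x * (y - 1)) := by
      field_simp; ring
    rw [this, v.map_mul, map_inv₀, hyv, inv_one, one_mul]
    refine (v.map_add _ _).trans (max_le ?_ ?_)
    · rw [v.map_neg]; exact mrep_one_add_pow_sub_sub v hx (m + 1)
    · rw [v.map_mul, v.map_mul, sq]
      exact mul_le_mul' (mul_le_of_le_one_left' (mrep_val_nat_le v _))
        (mrep_one_add_pow_sub v hx (m + 1))

end Generic

variable {p : ℕ} {A : ValuationSubring Qb} {ζ : Qb} {H : Subgroup GQ} {σ : GQ}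

theorem mrep_fix_zpow {x : Qb} (hx : MreFix H x) (n : ℤ) : MreFix H (x ^ n) := fun h hh => by
  rw [map_zpow₀, hx h hh]

/-- an `H`-fixed element of the maximal ideal has valuation `≤ v π`. -/
theorem mrep_le_pi {π : Qb} (hπ0 : π ≠ 0)
    (hU : ∀ z : Qb, MreFix H z → z ∈ A.nonunits → z / π ∈ A) {z : Qb} (hz : MreFix H z)
    (hzm : z ∈ A.nonunits) : A.valuation z ≤ A.valuation π := by
  have h := (A.valuation_le_one_iff _).mpr (hU z hz hzm)
  rw [map_div₀] at h
  have hπv : A.valuation π ≠ 0 := (A.valuation.ne_zero_iff).mpr hπ0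
  calc A.valuation z = A.valuation z / A.valuation π * A.valuation π := by
        rw [div_mul_cancel₀ _ hπv]
    _ ≤ 1 * A.valuation π := by gcongr
    _ = _ := one_mul _

/-- **(P1) in the output form of block `mre`.** -/
theorem mrep_P1 (T : MreTower p A ζ H σ) (hp : p.Prime) (hA : A.LiesOverPrime p)
    (hconj : ∀ g ∈ A.inertiaSubgroupIn ℚ, ∀ a : ℕ, g ζ = ζ ^ a →
      ∃ h ∈ H, g * σ * g⁻¹ = σ ^ a * h)
    {τ : Qb} (hτH : MreFix H τ) (hτm : τ ∈ A.nonunits)
    (hτσ : A.valuation (σ τ - τ) = A.valuation (1 - ζ)) :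
    ∃ π c : Qb, MreP1 p A H σ π c := by
  haveI : Fact p.Prime := ⟨hp⟩
  obtain ⟨π, P, hδ, htriv⟩ := mreb_main T hp hA hconj hτH hτm hτσ
  have hπ0 := P.ne_zero hp
  have hπlt := P.val_lt hp hA
  have hπA := P.mem hp hA
  have hπv : A.valuation π ≠ 0 := (A.valuation.ne_zero_iff).mpr hπ0
  have hσπH : MreFix H (σ π) := T.map_fix T.hσI P.fix
  -- c₀ := (σ π - π) / π ^ 2, a unit
  set c₀ : Qb := (σ π - π) / π ^ 2 with hc₀
  have hc₀v : A.valuation c₀ = 1 := by
    rw [hc₀, map_div₀, hδ, map_pow, div_self (pow_ne_zero 2 hπv)]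
  have hc₀H : MreFix H c₀ := (hσπH.sub P.fix).div (P.fix.pow 2)
  have hc₀A : c₀ ∈ A := (A.valuation_le_one_iff _).mp hc₀v.le
  obtain ⟨c, hcW, hcm⟩ := ffiw_residue_surjective A hA hc₀A
  have hcH : MreFix H c := mreb_fix_W T hcW
  have hcv : A.valuation c = 1 := by
    have h1 : A.valuation (c₀ - c) < 1 := (ValuationSubring.mem_nonunits_iff (A := A)).mp hcm
    have h2 : A.valuation (c - c₀) < A.valuation c₀ := by
      rw [hc₀v, ← neg_sub, Valuation.map_neg]; exact h1
    have := A.valuation.map_add_eq_of_lt_left (x := c₀) (y := c - c₀) h2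
    rw [add_sub_cancel, hc₀v] at this
    exact this
  -- c₀ - c is divisible by π
  have hdiff : A.valuation (c₀ - c) ≤ A.valuation π :=
    mrep_le_pi hπ0 P.unif (hc₀H.sub hcH) hcm
  -- δ := σ π / π - 1 = c₀ π
  have hσπ : σ π = π * (1 + c₀ * π) := by
    rw [hc₀]; field_simp; ring
  have hδlt : A.valuation (c₀ * π) < 1 := by
    rw [map_mul, hc₀v, one_mul]; exact hπlt
  have hδv : A.valuation (c₀ * π) = A.valuation π := by rw [map_mul, hc₀v, one_mul]
  have hpic : A.valuation (σ π - π * (1 + c * π)) ≤ A.valuation π ^ 3 := by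
    have e : σ π - π * (1 + c * π) = π ^ 2 * (c₀ - c) := by rw [hσπ]; ring
    rw [e, map_mul, map_pow, pow_succ (A.valuation π) 2]
    gcongr
  have hmove : ∀ y : Qb, MreFix H y → ∀ n : ℤ, A.valuation y = A.valuation π ^ n →
      A.valuation (σ y - y * (1 + c * (n : Qb) * π)) ≤ A.valuation y * A.valuation π ^ 2 := by
    intro y hy n hn
    set u : Qb := y / π ^ n with hu
    have hπn0 : π ^ n ≠ 0 := zpow_ne_zero n hπ0
    have huv : A.valuation u = 1 := by
      rw [hu, map_div₀, map_zpow₀, hn, div_self (zpow_ne_zero n hπv)]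
    have huH : MreFix H u := hy.div (mrep_fix_zpow P.fix n)
    have huA : u ∈ A := (A.valuation_le_one_iff _).mp huv.le
    have hyu : y = u * π ^ n := by rw [hu, div_mul_cancel₀ _ hπn0]
    have hσy : σ y = σ u * (π ^ n * (1 + c₀ * π) ^ n) := by
      rw [hyu, map_mul, map_zpow₀, hσπ, mul_zpow]
    have e : σ y - y * (1 + c * (n : Qb) * π) =
        π ^ n * ((σ u - u) * (1 + c₀ * π) ^ n +
          u * ((1 + c₀ * π) ^ n - 1 - (n : Qb) * (c₀ * π)) + u * (n : Qb) * π * (c₀ - c)) := by
      rw [hσy, hyu]; ring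
    rw [e, map_mul, map_zpow₀, hn]
    gcongr
    refine (A.valuation.map_add _ _).trans (max_le ((A.valuation.map_add _ _).trans
      (max_le ?_ ?_)) ?_)
    · rw [map_mul, map_zpow₀, mrep_val_one_add _ hδlt, one_zpow, mul_one]
      exact htriv u huH huA
    · rw [map_mul, huv, one_mul]
      have := mrep_one_add_zpow_sub_sub A.valuation hδlt n
      rwa [hδv] at this
    · rw [map_mul, map_mul, map_mul, huv, one_mul, sq]
      calc A.valuation (n : Qb) * A.valuation π * A.valuation (c₀ - c)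
          ≤ 1 * A.valuation π * A.valuation π := by
            gcongr
            exact mrep_val_int_le _ n
        _ = _ := by rw [one_mul]
  exact ⟨π, c, P.fix, hπ0, hπlt, fun y hy hy0 => P.val_eq_zpow T hp hA hy hy0,
    by have := P.ord; unfold MreOrd at this; rwa [zpow_one] at this,
    hcW, hcv, hpic, htriv, hmove⟩

/-! ### consequences of `MreP1` -/

section Derived

variable {π c : Qb}

theorem mrep_pi_val_ne (P : MreP1 p A H σ π c) : A.valuation π ≠ 0 :=
  (A.valuation.ne_zero_iff).mpr P.ne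

/-- `π` divides every `H`-fixed element of the maximal ideal. -/
theorem mrep_unif (P : MreP1 p A H σ π c) {z : Qb} (hz : MreFix H z) (hzm : z ∈ A.nonunits) :
    z / π ∈ A := by
  by_cases hz0 : z = 0
  · rw [hz0, zero_div]; exact A.zero_mem
  obtain ⟨n, hn⟩ := P.vg z hz hz0
  have hπv := mrep_pi_val_ne P
  have hπpos : 0 < A.valuation π := zero_lt_iff.mpr hπv
  have hlt : A.valuation z < 1 := (ValuationSubring.mem_nonunits_iff (A := A)).mp hzm
  have hn1 : 1 ≤ n := by
    by_contra hcon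
    have hn0 : n ≤ 0 := by omega
    have : A.valuation π ^ (0 : ℤ) ≤ A.valuation π ^ n :=
      (zpow_le_zpow_iff_right_of_lt_one₀ hπpos P.lt).mpr hn0
    rw [zpow_zero, ← hn] at this
    exact absurd hlt (not_lt.mpr this)
  rw [← A.valuation_le_one_iff, map_div₀, hn]
  have h1 : A.valuation π ^ n ≤ A.valuation π ^ (1 : ℤ) :=
    (zpow_le_zpow_iff_right_of_lt_one₀ hπpos P.lt).mpr hn1
  rw [zpow_one] at h1
  calc A.valuation π ^ n / A.valuation π ≤ A.valuation π / A.valuation π := by
        rw [div_eq_mul_inv, div_eq_mul_inv]; exact mul_le_mul' h1 le_rfl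
    _ = 1 := div_self hπv

/-- `(σ - 1) π^j O_L ⊆ π^(j+1) O_L` : `v(σ y - y) ≤ v(y) v(π)` for every `H`-fixed `y`. -/
theorem mrep_shift (P : MreP1 p A H σ π c) {y : Qb} (hy : MreFix H y) :
    A.valuation (σ y - y) ≤ A.valuation y * A.valuation π := by
  by_cases hy0 : y = 0
  · simp [hy0]
  obtain ⟨n, hn⟩ := P.vg y hy hy0
  have h := P.move y hy n hn
  have e : σ y - y = (σ y - y * (1 + c * (n : Qb) * π)) + y * (c * (n : Qb) * π) := by ring
  rw [e]
  refine (A.valuation.map_add _ _).trans (max_le (h.trans ?_) ?_)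
  · rw [sq, ← mul_assoc]
    exact mul_le_of_le_one_right' P.lt.le
  · rw [map_mul, map_mul, map_mul, P.cu, one_mul]
    gcongr
    exact mul_le_of_le_one_left' (mrep_val_int_le _ n)

/-- **second-order form** : `σ²(y) y ≡ σ(y)² (1 + c² n π²) mod y² π³` for `v(y) = v(π)^n`
(`σ ∈ I`, `H ≤ I`, `σ` maps `H`-fixed elements to `H`-fixed elements). -/
theorem mrep_second (P : MreP1 p A H σ π c) (hσI : σ ∈ A.inertiaSubgroupIn ℚ)
    (hHI : H ≤ A.inertiaSubgroupIn ℚ) (hsfix : ∀ y : Qb, MreFix H y → MreFix H (σ y))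
    {y : Qb} (hy : MreFix H y) {n : ℤ} (hn : A.valuation y = A.valuation π ^ n) :
    A.valuation (σ (σ y) * y - σ y ^ 2 * (1 + c ^ 2 * (n : Qb) * π ^ 2)) ≤
      A.valuation y ^ 2 * A.valuation π ^ 3 := by
  have hcfix : σ c = c := P.cW.2 σ hσI
  have hcH : MreFix H c := fun h hh => P.cW.2 h (hHI hh)
  have hπv := mrep_pi_val_ne P
  have hyv : A.valuation y ≠ 0 := by rw [hn]; exact zpow_ne_zero n hπv
  have hy0 : y ≠ 0 := (A.valuation.ne_zero_iff).mp hyv
  -- ρ := (σ y - y (1 + c n π)) / y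
  set ρ : Qb := (σ y - y * (1 + c * (n : Qb) * π)) / y with hρ
  have hρv : A.valuation ρ ≤ A.valuation π ^ 2 := by
    rw [hρ, map_div₀]
    calc A.valuation (σ y - y * (1 + c * (n : Qb) * π)) / A.valuation y
        ≤ A.valuation y * A.valuation π ^ 2 / A.valuation y := by
          rw [div_eq_mul_inv, div_eq_mul_inv]
          exact mul_le_mul' (P.move y hy n hn) le_rfl
      _ = _ := by rw [mul_comm, mul_div_assoc, div_self hyv, mul_one]
  have hρH : MreFix H ρ :=
    ((hsfix y hy).sub (hy.mul ((MreFix.one.add ((hcH.mul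
      (MreFix.intCast n)).mul P.fix))))).div hy
  have hσy : σ y = y * (1 + c * (n : Qb) * π + ρ) := by
    rw [hρ]; field_simp; ring
  -- ε₁ := σ π - π (1 + c π)
  set ε₁ : Qb := σ π - π * (1 + c * π) with hε₁
  have hσπ : σ π = π * (1 + c * π) + ε₁ := by rw [hε₁]; ring
  have hσρ : A.valuation (σ ρ - ρ) ≤ A.valuation π ^ 3 := by
    refine (mrep_shift P hρH).trans ?_
    rw [pow_succ (A.valuation π) 2]
    gcongr
  have hσσy : σ (σ y) = σ y * (1 + c * (n : Qb) * σ π + σ ρ) := by
    conv_lhs => rw [hσy]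
    rw [map_mul, map_add, map_add, map_one, map_mul, map_mul, hcfix, map_intCast]
  have e : σ (σ y) * y - σ y ^ 2 * (1 + c ^ 2 * (n : Qb) * π ^ 2) =
      y ^ 2 * ((1 + c * (n : Qb) * π + ρ) *
        (c * (n : Qb) * ε₁ + (σ ρ - ρ)
          - (c * (n : Qb) * π + ρ) * (c ^ 2 * (n : Qb) * π ^ 2))) := by
    rw [hσσy, hσπ, hσy]; ring
  rw [e, map_mul, map_pow]
  gcongr
  have hn1 : A.valuation (n : Qb) ≤ 1 := mrep_val_int_le _ n
  have hπ1 : A.valuation π ≤ 1 := P.lt.le
  have hr : A.valuation (1 + c * (n : Qb) * π + ρ) ≤ 1 := by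
    refine (A.valuation.map_add _ _).trans (max_le ((A.valuation.map_add _ _).trans
      (max_le (by rw [map_one]) ?_)) ?_)
    · rw [map_mul, map_mul, P.cu, one_mul]
      exact mul_le_one' hn1 hπ1
    · exact hρv.trans (pow_le_one' hπ1 2)
  rw [map_mul]
  refine (mul_le_of_le_one_left' hr).trans ?_
  refine (A.valuation.map_sub _ _).trans (max_le ((A.valuation.map_add _ _).trans
    (max_le ?_ hσρ)) ?_)
  · rw [map_mul, map_mul, P.cu, one_mul]
    exact (mul_le_of_le_one_left' hn1).trans P.pic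
  · rw [map_mul, map_mul, map_mul, map_pow, map_pow, P.cu, one_pow, one_mul,
      pow_succ' (A.valuation π) 2]
    have h1 : A.valuation (c * (n : Qb) * π + ρ) ≤ A.valuation π := by
      refine (A.valuation.map_add _ _).trans (max_le ?_ ?_)
      · rw [map_mul, map_mul, P.cu, one_mul]
        exact mul_le_of_le_one_left' hn1
      · refine hρv.trans ?_
        rw [sq]
        exact mul_le_of_le_one_left' hπ1
    calc A.valuation (c * (n : Qb) * π + ρ) * (A.valuation (n : Qb) * A.valuation π ^ 2)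
        ≤ A.valuation π * (1 * A.valuation π ^ 2) := by gcongr
      _ = _ := by rw [one_mul]

/-- the second-order form in the tower of `Tower.lean`. -/
theorem mrep_second_tower (T : MreTower p A ζ H σ) (P : MreP1 p A H σ π c)
    {y : Qb} (hy : MreFix H y) {n : ℤ} (hn : A.valuation y = A.valuation π ^ n) :
    A.valuation (σ (σ y) * y - σ y ^ 2 * (1 + c ^ 2 * (n : Qb) * π ^ 2)) ≤
      A.valuation y ^ 2 * A.valuation π ^ 3 :=
  mrep_second P T.hσI T.hHI (fun _ h => T.map_fix T.hσI h) hy hn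

end Derived

end Fermat.Agent.MR
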