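import Mathlib
import Fermat.Agent.MR.E.Spec
import Fermat.Agent.MR.E.P1

/-!
# PROGRAM MR (S44), BLOCK `mre`: THE ABSTRACT INTEGRATION (module shape ⟹ tower + conjugation + `τ`)

Owner: helper10.  Namespace `Fermat.Agent.MR`, prefix `mrei`.

`V` a `G_ℚ`-module killed by `p` with `#V ≤ p²`, `V'` a proper non-zero submodule with `I` acting
trivially on `V / V'`, `z : V → ℚ̄` an `I`-equivariant coordinate on `V'`, additive to second order,
with `v (z t) ^ (p - 1) = v p` off `0`.  Then: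

* `mrei_char`  : `I` acts on `V'` through the cyclotomic character: `g ζ = ζ ^ a ⟹ g • t = a • t`;
* `mrei_tower` : for `σ ∈ I₀` moving `P₀`, `H := mreStab A ζ V` is the bottom of an `MreTower`, and the
  conjugation relation `g σ g⁻¹ ∈ σ ^ a H` holds;
* `mrei_break` : (P1) in the form of `mreb_main`.
-/

set_option autoImplicit false
set_option linter.style.haveILetI false
set_option linter.unusedSectionVars false
set_option linter.unusedVariables false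

noncomputable section

namespace Fermat.Agent.MR

open Fermat.Agent.FF Fermat.Agent.TT Fermat.Agent.S05

local notation "Qb" => AlgebraicClosure ℚ
local notation "GQ" => (AlgebraicClosure ℚ ≃ₐ[ℚ] AlgebraicClosure ℚ)

section Abs

variable {p : ℕ} {A : ValuationSubring Qb} {ζ : Qb}
variable {V : Type} [AddCommGroup V] [Module (ZMod p) V] [DistribMulAction GQ V]

/-- in a `ZMod p`-module, `k • t` only depends on `k` modulo `p`. -/
theorem mrei_nsmul_congr [Fact p.Prime] (t : V) {k a : ℕ} (h : (k : ZMod p) = (a : ZMod p)) :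
    k • t = a • t := by
  rw [← Nat.cast_smul_eq_nsmul (ZMod p) k t, ← Nat.cast_smul_eq_nsmul (ZMod p) a t, h]

theorem mrei_p_nsmul [Fact p.Prime] (t : V) : p • t = 0 := by
  rw [← Nat.cast_smul_eq_nsmul (ZMod p) p t, ZMod.natCast_self, zero_smul]

/-- the dimension count. -/
theorem mrei_finrank [Fact p.Prime] [Finite V] (hcard : Nat.card V ≤ p ^ 2) :
    Module.finrank (ZMod p) V ≤ 2 := by
  have : Module.Finite (ZMod p) V := Module.Finite.of_finite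
  have h1 := Module.natCard_eq_pow_finrank (K := ZMod p) (V := V)
  rw [Nat.card_zmod] at h1
  rw [h1] at hcard
  exact (Nat.pow_le_pow_iff_right (Fact.out : p.Prime).one_lt).1 hcard

/-- `V'` is a line: every element is a multiple of a given non-zero one. -/
theorem mrei_line [Fact p.Prime] [Finite V] (hcard : Nat.card V ≤ p ^ 2)
    {V' : Submodule (ZMod p) V} (h0 : V' ≠ ⊥) (h1 : V' ≠ ⊤) {t : V} (ht : t ∈ V') (ht0 : t ≠ 0)
    {t' : V} (ht' : t' ∈ V') : ∃ k : ℕ, t' = k • t := by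
  have : Module.Finite (ZMod p) V := Module.Finite.of_finite
  have hV := mrei_finrank hcard
  have hr : Module.finrank (ZMod p) V' = 1 := by
    have h2 : Module.finrank (ZMod p) V' ≠ 0 := fun h => h0 (Submodule.finrank_eq_zero.1 h)
    have h3 : Module.finrank (ZMod p) V' < Module.finrank (ZMod p) V := Submodule.finrank_lt h1
    omega
  have ht0' : (⟨t, ht⟩ : V') ≠ 0 := fun h => ht0 (congrArg Subtype.val h)
  obtain ⟨c, hc⟩ := (finrank_eq_one_iff_of_nonzero' (⟨t, ht⟩ : V') ht0').mp hr ⟨t', ht'⟩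
  refine ⟨c.val, ?_⟩
  have h4 : c • t = t' := congrArg Subtype.val hc
  rw [← h4, ← Nat.cast_smul_eq_nsmul (ZMod p) c.val t, ZMod.natCast_zmod_val]

/-- `V = ⟨P₀⟩ + V'` for `P₀ ∉ V'`. -/
theorem mrei_span [Fact p.Prime] [Finite V] (hcard : Nat.card V ≤ p ^ 2)
    {V' : Submodule (ZMod p) V} (h0 : V' ≠ ⊥) (h1 : V' ≠ ⊤) {P₀ : V} (hP : P₀ ∉ V') (x : V) :
    ∃ k : ℕ, x - k • P₀ ∈ V' := by
  have : Module.Finite (ZMod p) V := Module.Finite.of_finite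
  have hV := mrei_finrank hcard
  -- `V' ⊔ span {P₀} = ⊤`
  have hlt : V' < V' ⊔ Submodule.span (ZMod p) {P₀} := by
    refine lt_of_le_of_ne le_sup_left fun h => hP ?_
    rw [h]
    exact Submodule.mem_sup_right (Submodule.mem_span_singleton_self P₀)
  have htop : V' ⊔ Submodule.span (ZMod p) {P₀} = ⊤ := by
    by_contra hne
    have h2 : Module.finrank (ZMod p) V' <
        Module.finrank (ZMod p) ↥(V' ⊔ Submodule.span (ZMod p) {P₀}) :=
      Submodule.finrank_lt_finrank_of_lt hlt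
    have h3 : Module.finrank (ZMod p) ↥(V' ⊔ Submodule.span (ZMod p) {P₀}) <
        Module.finrank (ZMod p) V := Submodule.finrank_lt hne
    have h4 : Module.finrank (ZMod p) V' ≠ 0 := fun h => h0 (Submodule.finrank_eq_zero.1 h)
    omega
  have hx : x ∈ V' ⊔ Submodule.span (ZMod p) {P₀} := by rw [htop]; trivial
  obtain ⟨t', ht', s, hs, rfl⟩ := Submodule.mem_sup.mp hx
  obtain ⟨c, rfl⟩ := Submodule.mem_span_singleton.mp hs
  refine ⟨c.val, ?_⟩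
  rw [← Nat.cast_smul_eq_nsmul (ZMod p) c.val P₀, ZMod.natCast_zmod_val, add_sub_cancel_right]
  exact ht'

/-- the data of the abstract integration: the module `V`, the line `V'`, the coordinate `z`. -/
structure MreiData (p : ℕ) (A : ValuationSubring Qb) (V : Type) [AddCommGroup V]
    [Module (ZMod p) V] [DistribMulAction GQ V] (V' : Submodule (ZMod p) V) (z : V → Qb) :
    Prop where
  card : Nat.card V ≤ p ^ 2
  fin : Finite V
  ne_bot : V' ≠ ⊥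
  ne_top : V' ≠ ⊤
  triv : ∀ g ∈ A.inertiaSubgroupIn ℚ, ∀ x : V, g • x - x ∈ V'
  zg : ∀ g ∈ A.inertiaSubgroupIn ℚ, ∀ t ∈ V', z (g • t) = g (z t)
  zn : ∀ t ∈ V', ∀ k : ℕ, A.valuation (z (k • t) - (k : Qb) * z t) ≤ A.valuation (z t) ^ 2
  z0 : ∀ t ∈ V', t ≠ 0 → A.valuation (z t) ^ (p - 1) = A.valuation (p : Qb)

namespace MreiData

variable {V' : Submodule (ZMod p) V} {z : V → Qb}

theorem smul_mem (D : MreiData p A V V' z) {g : GQ} (hg : g ∈ A.inertiaSubgroupIn ℚ) {t : V}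
    (ht : t ∈ V') : g • t ∈ V' := by
  have := V'.add_mem (D.triv g hg t) ht
  rwa [sub_add_cancel] at this

/-- `v (z t) = v (1 - ζ)` for `t ∈ V' ∖ 0`. -/
theorem val_z (D : MreiData p A V V' z) (hp : p.Prime) (hζ : ζ ^ p = 1) (hζ1 : ζ ≠ 1) {t : V}
    (ht : t ∈ V') (ht0 : t ≠ 0) : A.valuation (z t) = A.valuation (1 - ζ) := by
  have h1 := D.z0 t ht ht0
  rw [← mret_val_zeta (A := A) hp hζ hζ1] at h1
  have hp1 : p - 1 ≠ 0 := by have := hp.two_le; omega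
  exact (pow_left_inj₀ zero_le zero_le hp1).mp h1

/-- **`I` acts on `V'` through the cyclotomic character.** -/
theorem char (D : MreiData p A V V' z) (hp : p.Prime) (hA : A.LiesOverPrime p) (hζ : ζ ^ p = 1)
    (hζ1 : ζ ≠ 1) {g : GQ} (hg : g ∈ A.inertiaSubgroupIn ℚ) {a : ℕ} (hga : g ζ = ζ ^ a) {t : V}
    (ht : t ∈ V') : g • t = a • t := by
  haveI : Fact p.Prime := ⟨hp⟩
  haveI := D.fin
  haveI : CharP (IsLocalRing.ResidueField A) p := ffiw_charP A hA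
  by_cases ht0 : t = 0
  · rw [ht0, smul_zero, smul_zero]
  obtain ⟨k, hk⟩ := mrei_line D.card D.ne_bot D.ne_top ht ht0 (D.smul_mem hg ht)
  rw [hk]
  refine mrei_nsmul_congr (p := p) t ?_
  -- compare residues of `g Z / Z`
  set Z := z t with hZ
  have hvZ : A.valuation Z = A.valuation (1 - ζ) := D.val_z hp hζ hζ1 ht ht0
  have hζ0 : (1 : Qb) - ζ ≠ 0 := mret_one_sub_zeta_ne hζ1
  have hvζ0 : A.valuation (1 - ζ) ≠ 0 := (A.valuation.ne_zero_iff).mpr hζ0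
  have hZ0 : Z ≠ 0 := by
    intro h0
    rw [h0, map_zero] at hvZ
    exact hvζ0 hvZ.symm
  have hvZ0 : A.valuation Z ≠ 0 := (A.valuation.ne_zero_iff).mpr hZ0
  have hZlt : A.valuation Z < 1 := by rw [hvZ]; exact mret_val_zeta_lt hp hA hζ hζ1
  have hgZ : g Z = z (k • t) := by rw [hZ, ← D.zg g hg t ht, hk]
  -- first expression: `g Z / Z ≡ a`
  set u := Z / (1 - ζ) with hu
  have hvu : A.valuation u = 1 := by rw [hu, map_div₀, hvZ, div_self hvζ0]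
  have hu0 : u ≠ 0 := fun h0 => by rw [h0, map_zero] at hvu; exact zero_ne_one hvu
  obtain ⟨hv1, hr1⟩ := mrebRes_inertia_div hg hvu
  set G := ∑ i ∈ Finset.range a, ζ ^ i with hG
  have hGA : G ∈ A := mret_geom_mem hp hζ a
  have hgζ : g (1 - ζ) = (1 - ζ) * G := by rw [map_sub, map_one, hga, mret_one_sub_pow]
  have hZu : Z = u * (1 - ζ) := by rw [hu]; field_simp
  have e1 : g Z / Z = g u / u * G := by
    rw [hZu, map_mul, hgζ]; field_simp
  have hres1 : mrebRes A (g Z / Z) = (a : IsLocalRing.ResidueField A) := by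
    rw [e1, mrebRes_mul (mreb_mem_of_val_one hv1) hGA, hr1, one_mul, ← mrebRes_natCast (A := A) a,
      mrebRes_eq_iff hGA (natCast_mem A a)]
    exact mret_geom_sub hp hA hζ hζ1 a
  -- second expression: `g Z / Z ≡ k`
  have hvq : A.valuation (g Z / Z) = 1 := by
    rw [map_div₀, mreo_val_inertia hg, div_self hvZ0]
  have hres2 : mrebRes A (g Z / Z) = (k : IsLocalRing.ResidueField A) := by
    rw [← mrebRes_natCast (A := A) k, mrebRes_eq_iff (mreb_mem_of_val_one hvq) (natCast_mem A k)]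
    have e2 : g Z / Z - (k : Qb) = (z (k • t) - (k : Qb) * Z) / Z := by
      rw [hgZ]; field_simp
    rw [e2, ValuationSubring.mem_nonunits_iff, map_div₀]
    calc A.valuation (z (k • t) - (k : Qb) * Z) / A.valuation Z
        ≤ A.valuation Z ^ 2 / A.valuation Z := by
          rw [div_eq_mul_inv, div_eq_mul_inv]
          exact mul_le_mul_left (D.zn t ht k) _
      _ = A.valuation Z := by rw [pow_two, mul_div_assoc, div_self hvZ0, mul_one]
      _ < 1 := hZlt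
  have h3 : (k : IsLocalRing.ResidueField A) = (a : IsLocalRing.ResidueField A) :=
    hres2.symm.trans hres1
  rw [CharP.natCast_eq_natCast (IsLocalRing.ResidueField A) p] at h3
  exact (ZMod.natCast_eq_natCast_iff k a p).mpr h3


/-- `I₀` fixes `V'` pointwise. -/
theorem fix_line (D : MreiData p A V V' z) (hp : p.Prime) (hA : A.LiesOverPrime p) (hζ : ζ ^ p = 1)
    (hζ1 : ζ ≠ 1) {g : GQ} (hg : g ∈ A.inertiaSubgroupIn ℚ) (hgζ : g ζ = ζ) {t : V}
    (ht : t ∈ V') : g • t = t := by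
  have := D.char hp hA hζ hζ1 hg (a := 1) (by rw [pow_one]; exact hgζ) ht
  rwa [one_smul] at this

/-- `g ^ k • x = x + k • (g • x - x)` for `g ∈ I₀`. -/
theorem pow_smul (D : MreiData p A V V' z) (hp : p.Prime) (hA : A.LiesOverPrime p) (hζ : ζ ^ p = 1)
    (hζ1 : ζ ≠ 1) {g : GQ} (hg : g ∈ A.inertiaSubgroupIn ℚ) (hgζ : g ζ = ζ) (x : V) (k : ℕ) :
    g ^ k • x = x + k • (g • x - x) := by
  induction k with
  | zero => rw [pow_zero, one_smul, zero_smul, add_zero]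
  | succ k ih =>
    rw [pow_succ', mul_smul, ih, smul_add, smul_comm g k,
      D.fix_line hp hA hζ hζ1 hg hgζ (D.triv g hg x), succ_nsmul]
    abel

/-- two elements of `I₀` which agree on `P₀ ∉ V'` agree on `V`. -/
theorem eq_of_base (D : MreiData p A V V' z) (hp : p.Prime) (hA : A.LiesOverPrime p)
    (hζ : ζ ^ p = 1) (hζ1 : ζ ≠ 1) {g g' : GQ} (hg : g ∈ A.inertiaSubgroupIn ℚ) (hgζ : g ζ = ζ)
    (hg' : g' ∈ A.inertiaSubgroupIn ℚ) (hgζ' : g' ζ = ζ) {P₀ : V} (hP : P₀ ∉ V')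
    (h : g • P₀ = g' • P₀) (x : V) : g • x = g' • x := by
  haveI : Fact p.Prime := ⟨hp⟩
  haveI := D.fin
  obtain ⟨m, hm⟩ := mrei_span D.card D.ne_bot D.ne_top hP x
  have hx : x = m • P₀ + (x - m • P₀) := by abel
  rw [hx, smul_add, smul_add, smul_comm g m, smul_comm g' m, h,
    D.fix_line hp hA hζ hζ1 hg hgζ hm, D.fix_line hp hA hζ hζ1 hg' hgζ' hm]

end MreiData

/-- `I₀ := {g ∈ I | g ζ = ζ}`. -/
def mreiI0 (A : ValuationSubring Qb) (ζ : Qb) : Subgroup GQ where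
  carrier := {g | g ∈ A.inertiaSubgroupIn ℚ ∧ g ζ = ζ}
  one_mem' := ⟨one_mem _, rfl⟩
  mul_mem' := fun {g h} hg hh => ⟨mul_mem hg.1 hh.1, by rw [AlgEquiv.mul_apply, hh.2, hg.2]⟩
  inv_mem' := fun {g} hg => ⟨inv_mem hg.1, by
    have h : g⁻¹ (g ζ) = g⁻¹ ζ := congrArg (fun y => g⁻¹ y) hg.2
    rw [← AlgEquiv.mul_apply, inv_mul_cancel, AlgEquiv.one_apply] at h
    exact h.symm⟩

theorem mem_mreiI0 {g : GQ} : g ∈ mreiI0 A ζ ↔ g ∈ A.inertiaSubgroupIn ℚ ∧ g ζ = ζ := Iff.rfl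

/-- `I₀` is normalised by every automorphism. -/
theorem mreiI0_conj (hp : p.Prime) (hζ : ζ ^ p = 1) (hζ1 : ζ ≠ 1) {g h : GQ}
    (hg : g ∈ A.inertiaSubgroupIn ℚ) (hh : h ∈ mreiI0 A ζ) : g * h * g⁻¹ ∈ mreiI0 A ζ := by
  refine ⟨mul_mem (mul_mem hg hh.1) (inv_mem hg), ?_⟩
  -- `g⁻¹ ζ` is a power of `ζ`
  have h1 : (g⁻¹ ζ) ^ p = 1 := by rw [← map_pow, hζ, map_one]
  have h2 : g⁻¹ ζ ≠ 1 := by
    intro h0
    apply hζ1
    have : g (g⁻¹ ζ) = g 1 := congrArg g h0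
    rwa [← AlgEquiv.mul_apply, mul_inv_cancel, AlgEquiv.one_apply, map_one] at this
  obtain ⟨a, -, -, ha⟩ := mret_eq_pow hp hζ hζ1 h1 h2
  rw [AlgEquiv.mul_apply, AlgEquiv.mul_apply, ha, map_pow, hh.2, ← ha, ← AlgEquiv.mul_apply,
    mul_inv_cancel, AlgEquiv.one_apply]

namespace MreiData

variable {V' : Submodule (ZMod p) V} {z : V → Qb}

/-- **the tower**: `H := mreStab A ζ V` is the bottom of an `MreTower` with top generator `σ`. -/
theorem tower (D : MreiData p A V V' z) (hp : p.Prime) (hA : A.LiesOverPrime p) (hζ : ζ ^ p = 1)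
    (hζ1 : ζ ≠ 1) {σ : GQ} (hσ : σ ∈ A.inertiaSubgroupIn ℚ) (hσζ : σ ζ = ζ) {P₀ : V}
    (hP₀ : σ • P₀ ≠ P₀) : MreTower p A ζ (mreStab A ζ V) σ := by
  haveI : Fact p.Prime := ⟨hp⟩
  haveI := D.fin
  have hσ0 : σ ∈ mreiI0 A ζ := ⟨hσ, hσζ⟩
  have hPV : P₀ ∉ V' := fun h => hP₀ (D.fix_line hp hA hζ hζ1 hσ hσζ h)
  have hT : σ • P₀ - P₀ ∈ V' := D.triv σ hσ P₀
  have hT0 : σ • P₀ - P₀ ≠ 0 := fun h => hP₀ (sub_eq_zero.mp h)
  refine ⟨hζ, hζ1, fun h hh => hh.1, fun h hh => hh.2.1, ?_, hσ, hσζ, ?_, ?_, ?_⟩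
  · -- normality
    intro g hg h hh
    have h0 := mreiI0_conj hp hζ hζ1 hg (⟨hh.1, hh.2.1⟩ : h ∈ mreiI0 A ζ)
    refine ⟨h0.1, h0.2, fun x => ?_⟩
    rw [mul_smul, mul_smul, hh.2.2, smul_inv_smul]
  · -- `σ ^ p ∈ H`
    have h0 := pow_mem hσ0 p
    refine ⟨h0.1, h0.2, fun x => ?_⟩
    rw [D.pow_smul hp hA hζ hζ1 hσ hσζ, mrei_p_nsmul, add_zero]
  · -- `σ ∉ H`
    exact fun h => hP₀ (h.2.2 P₀)
  · -- the cover
    intro g hg hgζ
    obtain ⟨k, hk⟩ := mrei_line D.card D.ne_bot D.ne_top hT hT0 (D.triv g hg P₀)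
    have hk0 := pow_mem hσ0 k
    have hagree : ∀ x : V, g • x = σ ^ k • x := by
      refine D.eq_of_base hp hA hζ hζ1 hg hgζ hk0.1 hk0.2 hPV ?_
      rw [D.pow_smul hp hA hζ hζ1 hσ hσζ, ← hk]
      abel
    refine ⟨k, (σ ^ k)⁻¹ * g, ?_, by rw [mul_inv_cancel_left]⟩
    have h0 : (σ ^ k)⁻¹ * g ∈ mreiI0 A ζ := mul_mem (inv_mem hk0) ⟨hg, hgζ⟩
    refine ⟨h0.1, h0.2, fun x => ?_⟩
    rw [mul_smul, hagree, inv_smul_smul]

/-- **the conjugation relation**: `g σ g⁻¹ ∈ σ ^ a H` for `g ∈ I` with `g ζ = ζ ^ a`. -/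
theorem conj (D : MreiData p A V V' z) (hp : p.Prime) (hA : A.LiesOverPrime p) (hζ : ζ ^ p = 1)
    (hζ1 : ζ ≠ 1) {σ : GQ} (hσ : σ ∈ A.inertiaSubgroupIn ℚ) (hσζ : σ ζ = ζ) :
    ∀ g ∈ A.inertiaSubgroupIn ℚ, ∀ a : ℕ, g ζ = ζ ^ a →
      ∃ h ∈ mreStab A ζ V, g * σ * g⁻¹ = σ ^ a * h := by
  intro g hg a hga
  have hσ0 : σ ∈ mreiI0 A ζ := ⟨hσ, hσζ⟩
  have hc0 := mreiI0_conj hp hζ hζ1 hg hσ0
  have ha0 := pow_mem hσ0 a
  refine ⟨(σ ^ a)⁻¹ * (g * σ * g⁻¹), ?_, by rw [mul_inv_cancel_left]⟩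
  have h0 : (σ ^ a)⁻¹ * (g * σ * g⁻¹) ∈ mreiI0 A ζ := mul_mem (inv_mem ha0) hc0
  refine ⟨h0.1, h0.2, fun x => ?_⟩
  -- `(g σ g⁻¹) • x = x + a • (σ • x - x) = σ ^ a • x`
  have hs : g⁻¹ • x - x ∈ V' := D.triv g⁻¹ (inv_mem hg) x
  have hy : σ • (g⁻¹ • x) = g⁻¹ • x + (σ • x - x) := by
    have e : g⁻¹ • x = x + (g⁻¹ • x - x) := by abel
    conv_lhs => rw [e, smul_add, D.fix_line hp hA hζ hζ1 hσ hσζ hs]
    abel
  have hkey : (g * σ * g⁻¹) • x = σ ^ a • x := by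
    rw [mul_smul, mul_smul, hy, smul_add, smul_inv_smul,
      D.char hp hA hζ hζ1 hg hga (D.triv σ hσ x), D.pow_smul hp hA hζ hζ1 hσ hσζ]
  rw [mul_smul, hkey, inv_smul_smul]

end MreiData

namespace MreiData

variable {V' : Submodule (ZMod p) V} {z : V → Qb}

/-- **the integration from the data.** -/
theorem integ (D : MreiData p A V V' z) (hp : p.Prime) (hA : A.LiesOverPrime p) (hζ : ζ ^ p = 1)
    (hζ1 : ζ ≠ 1) {σ : GQ} (hσ : σ ∈ A.inertiaSubgroupIn ℚ) (hσζ : σ ζ = ζ) {P₀ : V}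
    (hP₀ : σ • P₀ ≠ P₀)
    (hτ : ∃ τ : Qb, (∀ g ∈ A.inertiaSubgroupIn ℚ, g • P₀ = P₀ → g τ = τ) ∧ τ ∈ A.nonunits ∧
        A.valuation (σ τ - τ) = A.valuation (z (σ • P₀ - P₀))) :
    ∃ π c : Qb, MreP1 p A (mreStab A ζ V) σ π c := by
  obtain ⟨τ, hτfix, hτm, hτσ⟩ := hτ
  have T := D.tower hp hA hζ hζ1 hσ hσζ hP₀
  have hT : σ • P₀ - P₀ ∈ V' := D.triv σ hσ P₀
  have hT0 : σ • P₀ - P₀ ≠ 0 := fun h => hP₀ (sub_eq_zero.mp h)
  refine mrep_P1 T hp hA (D.conj hp hA hζ hζ1 hσ hσζ) (τ := τ)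
    (fun h hh => hτfix h hh.1 (hh.2.2 P₀)) hτm ?_
  rw [hτσ, D.val_z hp hζ hζ1 hT hT0]

end MreiData

/-- **THE ABSTRACT INTEGRATION ARROW.** -/
theorem mrei_integ (p : ℕ) : MreIntegSpec p := by
  intro hp A hA ζ hζ hζ1 V _ _ _ hcard hfin V' h0 h1 htriv z hzg hzn hz0 σ hσ hσζ P₀ hP₀ hτ
  have D : MreiData p A V V' z := ⟨hcard, hfin, h0, h1, htriv, hzg, hzn, hz0⟩
  exact D.integ hp hA hζ hζ1 hσ hσζ hP₀ hτ

end Abs

end Fermat.Agent.MR
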