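import Mathlib
import Fermat.Agent.MR.E.Integ
import Fermat.Agent.MR.ESide.ShapeSpec
import Fermat.Agent.MR.ESide.MultPt
import Fermat.Agent.S05.VariableChangeGalois
import Fermat.Agent.S05.LegendreUnram
import Fermat.Agent.S05.Inertia
import Fermat.Agent.S41.NE.Tors

/-!
# PROGRAM MR (S44), BLOCK `mre`: THE FREY CURVE  ((e1) + (e2) ⟹ (P1))

Owner: helper10.  Namespace `Fermat.Agent.MR`, prefix `mref`.

* `mref_legendre` : (e1) `MresShapeSpec` (helper27) + (e2) `mremp_tau` (helper13) + the abstract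
  integration `MreiData.integ` ⟹ (P1) for the Legendre model `Y² = X (X - A) (X + B)` at `p ∣ A B`;
* `mref_stab_eq`  : the pointwise stabiliser of `E[p]` does not depend on the model;
* `mref_P1`       : `MresShapeSpec → MreP1Spec P` for every Frey package `P`;
* `mref_P1_min`   : the same from the part `MrefShapeMinSpec` of (e1) which is really consumed.
-/

set_option autoImplicit false
set_option linter.style.haveILetI false
set_option linter.unusedSectionVars false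
set_option linter.unusedVariables false

noncomputable section

namespace Fermat.Agent.MR

open WeierstrassCurve WeierstrassCurve.Affine WeierstrassCurve.Affine.Point
open Fermat.Agent.FF Fermat.Agent.TT Fermat.Agent.S05

local notation "Qb" => AlgebraicClosure ℚ
local notation "GQ" => (AlgebraicClosure ℚ ≃ₐ[ℚ] AlgebraicClosure ℚ)

/-! ## equivariance of the coordinates -/

theorem mref_xc_smul (W' : Affine ℚ) (σ : GQ) (Pt : (W'⁄Qb).Point) :
    xc (σ • Pt) = σ (xc Pt) := by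
  cases Pt with
  | zero =>
    show xc (0 : (W'⁄Qb).Point) = σ (xc (0 : (W'⁄Qb).Point))
    simp
  | some x y h =>
    obtain ⟨h', e⟩ := main_map_some W' σ h
    rw [Point.algEquiv_smul_def, e, xc_some, xc_some]

theorem mref_zCoord_smul (W' : Affine ℚ) (σ : GQ) (Pt : (W'⁄Qb).Point) :
    zCoord (W'⁄Qb) (σ • Pt) = σ (zCoord (W'⁄Qb) Pt) := by
  cases Pt with
  | zero =>
    show zCoord (W'⁄Qb) (0 : (W'⁄Qb).Point) = σ (zCoord (W'⁄Qb) (0 : (W'⁄Qb).Point))
    simp
  | some x y h =>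
    obtain ⟨h', e⟩ := main_map_some W' σ h
    rw [Point.algEquiv_smul_def, e, zCoord_some, zCoord_some, map_div₀, map_neg]

/-! ## the `p`-torsion of the kernel of reduction as a submodule -/

theorem mref_mem_tors {W' : Affine ℚ} {p : ℕ} {Pt : (W'⁄Qb).Point} :
    Pt ∈ Submodule.torsionBy ℤ (W'⁄Qb).Point p ↔ p • Pt = 0 := by
  rw [Submodule.mem_torsionBy_iff, natCast_zsmul]

/-- `V' := E[p] ∩ ker(red)`. -/
def mrefKer (W' : Affine ℚ) (p : ℕ) [Fact p.Prime] (Av : ValuationSubring Qb)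
    (hW : IsIntegralAt Av (W'⁄Qb)) :
    Submodule (ZMod p) (Submodule.torsionBy ℤ (W'⁄Qb).Point p) where
  carrier := {x | InKerRed Av (W'⁄Qb) (x : (W'⁄Qb).Point)}
  zero_mem' := by
    show InKerRed Av (W'⁄Qb) (0 : (W'⁄Qb).Point)
    exact inKerRed_zero
  add_mem' := fun {x y} hx hy => inKerRed_add hW hx hy
  smul_mem' := fun c x hx => by
    have h1 : c • x = c.val • x := by
      rw [← Nat.cast_smul_eq_nsmul (ZMod p) c.val x, ZMod.natCast_zmod_val]
    show InKerRed Av (W'⁄Qb) ((c • x : Submodule.torsionBy ℤ (W'⁄Qb).Point p) : (W'⁄Qb).Point)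
    rw [h1, AddSubmonoidClass.coe_nsmul]
    exact inKerRed_nsmul hW hx _

theorem mem_mrefKer {W' : Affine ℚ} {p : ℕ} [Fact p.Prime] {Av : ValuationSubring Qb}
    {hW : IsIntegralAt Av (W'⁄Qb)} {x : Submodule.torsionBy ℤ (W'⁄Qb).Point p} :
    x ∈ mrefKer W' p Av hW ↔ InKerRed Av (W'⁄Qb) (x : (W'⁄Qb).Point) := Iff.rfl


/-! ## the Legendre model -/

theorem mref_leg_integral (A B : ℤ) (Av : ValuationSubring Qb) :
    IsIntegralAt Av (((legendreCurve A B : WeierstrassCurve ℚ)⁄Qb) : Affine Qb) := by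
  have e₁ : (((legendreCurve A B : WeierstrassCurve ℚ)⁄Qb)).a₁ = ((0 : ℤ) : Qb) := by
    show algebraMap ℚ Qb (legendreCurve A B).a₁ = _
    simp [legendreCurve]
  have e₂ : (((legendreCurve A B : WeierstrassCurve ℚ)⁄Qb)).a₂ = ((B - A : ℤ) : Qb) := by
    show algebraMap ℚ Qb (legendreCurve A B).a₂ = _
    simp [legendreCurve]
  have e₃ : (((legendreCurve A B : WeierstrassCurve ℚ)⁄Qb)).a₃ = ((0 : ℤ) : Qb) := by
    show algebraMap ℚ Qb (legendreCurve A B).a₃ = _
    simp [legendreCurve]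
  have e₄ : (((legendreCurve A B : WeierstrassCurve ℚ)⁄Qb)).a₄ = ((-(A * B) : ℤ) : Qb) := by
    show algebraMap ℚ Qb (legendreCurve A B).a₄ = _
    simp [legendreCurve]
  have e₆ : (((legendreCurve A B : WeierstrassCurve ℚ)⁄Qb)).a₆ = ((0 : ℤ) : Qb) := by
    show algebraMap ℚ Qb (legendreCurve A B).a₆ = _
    simp [legendreCurve]
  refine ⟨?_, ?_, ?_, ?_, ?_⟩
  · rw [e₁]; exact intCast_mem Av _
  · rw [e₂]; exact intCast_mem Av _
  · rw [e₃]; exact intCast_mem Av _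
  · rw [e₄]; exact intCast_mem Av _
  · rw [e₆]; exact intCast_mem Av _

theorem mref_leg_disc (A B : ℤ) (hA : A ≠ 0) (hB : B ≠ 0) (hAB : A + B ≠ 0) :
    (((legendreCurve A B : WeierstrassCurve ℚ)⁄Qb) : Affine Qb).Δ ≠ 0 := by
  have e : (((legendreCurve A B : WeierstrassCurve ℚ)⁄Qb) : Affine Qb).Δ =
      ((16 * (A * B) ^ 2 * (A + B) ^ 2 : ℤ) : Qb) := by
    show (WeierstrassCurve.map (legendreCurve A B) (algebraMap ℚ Qb)).Δ = _
    rw [WeierstrassCurve.map_Δ, legendreCurve_Δ]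
    simp
  rw [e]
  have : (16 * (A * B) ^ 2 * (A + B) ^ 2 : ℤ) ≠ 0 :=
    mul_ne_zero (mul_ne_zero (by norm_num) (pow_ne_zero 2 (mul_ne_zero hA hB))) (pow_ne_zero 2 hAB)
  exact_mod_cast this


/-- the part of (e1) which the integration really consumes: `V' ≠ 0`, `V' ≠ E[p]`, `MresQuot`,
`MresE2`, `MresNode`  (NOT `MresEps`, NOT the cyclicity of `V'`: both are re-derived in
`MreiData.char` / `mrei_line` from `#E[p] = p²`). -/
def MrefShapeMin (W' : Affine ℚ) (p : ℕ) (Av : ValuationSubring Qb) : Prop :=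
  (∃ T₀ : (W'⁄Qb).Point, T₀ ≠ 0 ∧ p • T₀ = 0 ∧ InKerRed Av (W'⁄Qb) T₀) ∧
  (∃ P₁ : (W'⁄Qb).Point, p • P₁ = 0 ∧ ¬ InKerRed Av (W'⁄Qb) P₁) ∧
  MresQuot W' p Av ∧ MresE2 W' p Av ∧ MresNode W' p Av

/-- **the minimal form of the (e1) SPEC.** -/
def MrefShapeMinSpec : Prop :=
  ∀ (A B : ℤ) (p : ℕ) (Av : ValuationSubring Qb), MresHyp A B p Av →
    MrefShapeMin (legendreCurve A B) p Av

theorem mref_min_of_shape (hS : MresShapeSpec) : MrefShapeMinSpec := by
  intro A B p Av hH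
  obtain ⟨⟨⟨T₀, h1, h2, h3, -⟩, hP⟩, hQ, -, hE, hN⟩ := hS A B p Av hH
  exact ⟨⟨T₀, h1, h2, h3⟩, hP, hQ, hE, hN⟩

/-- **the data of the abstract integration for the Legendre model**, from the minimal part of (e1). -/
theorem mref_data (A B : ℤ) {p : ℕ} [Fact p.Prime] {Av : ValuationSubring Qb}
    (hH : MresHyp A B p Av) (hS : MrefShapeMin (legendreCurve A B) p Av) :
    MreiData p Av (Submodule.torsionBy ℤ
        (((legendreCurve A B : WeierstrassCurve ℚ)⁄Qb) : Affine Qb).Point p)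
      (mrefKer (legendreCurve A B : Affine ℚ) p Av (mref_leg_integral A B Av))
      (fun x => zCoord (((legendreCurve A B : WeierstrassCurve ℚ)⁄Qb) : Affine Qb)
        (x : (((legendreCurve A B : WeierstrassCurve ℚ)⁄Qb) : Affine Qb).Point)) := by
  have hp := hH.pp
  have hp2 := hH.p2
  haveI : Algebra.IsAlgebraic ℚ Qb := AlgebraicClosure.isAlgebraic ℚ
  set E : Affine Qb := ((legendreCurve A B : WeierstrassCurve ℚ)⁄Qb) with hE
  obtain ⟨⟨T₀, hT₀0, hT₀p, hT₀k⟩, ⟨P₁, hP₁p, hP₁k⟩, hQuot, hE2, hNode⟩ := hS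
  have hW : IsIntegralAt Av E := mref_leg_integral A B Av
  have hΔ : E.Δ ≠ 0 := mref_leg_disc A B hH.disc.1 hH.disc.2.1 hH.disc.2.2
  have hIL : ∀ g ∈ Av.inertiaSubgroupIn ℚ, IsInertiaLike Av.valuation g := fun g hg =>
    isInertiaLike_of_mem_inertiaSubgroupIn Av g hg
  refine ⟨(Fermat.Agent.S41.s41net_card_torsionBy hΔ hp hp2).le,
    Fermat.Agent.S41.s41net_finite_torsionBy hΔ hp hp2, ?_, ?_, ?_, ?_, ?_, ?_⟩
  · -- `V' ≠ ⊥`
    intro h
    have hmem : (⟨T₀, mref_mem_tors.mpr hT₀p⟩ : Submodule.torsionBy ℤ E.Point p) ∈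
        mrefKer (legendreCurve A B : Affine ℚ) p Av hW := hT₀k
    rw [h, Submodule.mem_bot] at hmem
    exact hT₀0 (congrArg Subtype.val hmem)
  · -- `V' ≠ ⊤`
    intro h
    have hmem : (⟨P₁, mref_mem_tors.mpr hP₁p⟩ : Submodule.torsionBy ℤ E.Point p) ∈
        mrefKer (legendreCurve A B : Affine ℚ) p Av hW := by rw [h]; trivial
    exact hP₁k hmem
  · intro g hg x
    exact hQuot g (hIL g hg) x.1 (mref_mem_tors.mp x.2)
  · intro g hg t ht
    exact mref_zCoord_smul _ g t.1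
  · intro t ht k
    show Av.valuation (zCoord E ((k • t : Submodule.torsionBy ℤ E.Point p) : E.Point) -
      (k : Qb) * zCoord E t.1) ≤ _
    rw [AddSubmonoidClass.coe_nsmul]
    exact val_zCoord_nsmul hW ht k
  · intro t ht ht0
    exact hE2 t.1 (fun h => ht0 (Subtype.ext h)) (mref_mem_tors.mp t.2) ht

/-- **(P1) for the Legendre model**: (e1) + (e2) + the abstract integration. -/
theorem mref_legendre (hS : MrefShapeMinSpec) (A B : ℤ) {p : ℕ} {Av : ValuationSubring Qb}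
    (hH : MresHyp A B p Av) {ζ : Qb} (hζ : ζ ^ p = 1) (hζ1 : ζ ≠ 1) {σ : GQ}
    (hσ : σ ∈ Av.inertiaSubgroupIn ℚ) (hσζ : σ ζ = ζ)
    (hmove : ∃ x : Submodule.torsionBy ℤ
      (((legendreCurve A B : WeierstrassCurve ℚ)⁄Qb) : Affine Qb).Point p, σ • x ≠ x) :
    ∃ π c : Qb, MreP1 p Av (mreStab Av ζ (Submodule.torsionBy ℤ
      (((legendreCurve A B : WeierstrassCurve ℚ)⁄Qb) : Affine Qb).Point p)) σ π c := by
  have hp := hH.pp
  have hp2 := hH.p2
  have hA := hH.lies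
  haveI : Fact p.Prime := ⟨hp⟩
  haveI : Algebra.IsAlgebraic ℚ Qb := AlgebraicClosure.isAlgebraic ℚ
  have hS' := hS A B p Av hH
  have D := mref_data A B hH hS'
  obtain ⟨u, d, hu, hd, hd0⟩ := hH.pow
  have hAB : A * B ≠ 0 := mul_ne_zero hH.disc.1 hH.disc.2.1
  set E : Affine Qb := ((legendreCurve A B : WeierstrassCurve ℚ)⁄Qb) with hE
  obtain ⟨-, -, hQuot, hE2, hNode⟩ := hS'
  have hW : IsIntegralAt Av E := mref_leg_integral A B Av
  have hIL : ∀ g ∈ Av.inertiaSubgroupIn ℚ, IsInertiaLike Av.valuation g := fun g hg =>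
    isInertiaLike_of_mem_inertiaSubgroupIn Av g hg
  obtain ⟨P₀, hP₀⟩ := hmove
  refine D.integ hp hA hζ hζ1 hσ hσζ hP₀ ?_
  -- the element `τ`
  have hP₀V : P₀ ∉ mrefKer (legendreCurve A B : Affine ℚ) p Av hW := fun h =>
    hP₀ (D.fix_line hp hA hζ hζ1 hσ hσζ h)
  have hP₀p : p • (P₀ : E.Point) = 0 := mref_mem_tors.mp P₀.2
  have hP₀0 : (P₀ : E.Point) ≠ 0 := by
    intro h
    apply hP₀V
    show InKerRed Av E (P₀ : E.Point)
    rw [h]
    exact inKerRed_zero
  have hx : Av.valuation (xc (P₀ : E.Point)) < 1 := hNode P₀.1 hP₀p hP₀V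
  have hT0 : σ • (P₀ : E.Point) - P₀ ≠ 0 := by
    intro h
    apply hP₀
    exact Subtype.ext (sub_eq_zero.mp h)
  have hTk : InKerRed Av E (σ • (P₀ : E.Point) - P₀) := hQuot σ (hIL σ hσ) P₀.1 hP₀p
  obtain ⟨c₀, hc₀, hvc, hv1, hvσ⟩ := mremp_tau A B hp hp2 hH.a₂ hH.a₄ hAB u d hu hd Av hA σ
    P₀.1 hP₀p hP₀0 hx hT0 hTk
  set w : Qb := xc (P₀ : E.Point) / algebraMap ℚ Qb c₀ with hw
  have hwA : w ∈ Av := (Av.valuation_le_one_iff _).mp hv1.le
  obtain ⟨r₀, hrW, hrm⟩ := ffiw_residue_surjective Av hA hwA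
  refine ⟨w - r₀, ?_, hrm, ?_⟩
  · intro g hg hgP
    have h1 : g (xc (P₀ : E.Point)) = xc (P₀ : E.Point) := by
      rw [← mref_xc_smul]
      exact congrArg xc (congrArg Subtype.val hgP)
    rw [map_sub, hw, map_div₀, h1, g.commutes, hrW.2 g hg]
  · have e : σ (w - r₀) - (w - r₀) = σ w - w := by rw [map_sub, hrW.2 σ hσ]; ring
    rw [e, hvσ]
    rfl

/-! ## transfer along a change of variables -/

theorem mref_vc_mem {E E' : WeierstrassCurve ℚ} (C : VariableChange ℚ) (h : E' = C • E) {p : ℕ}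
    {Pt : (E'⁄Qb).Point} (hPt : Pt ∈ Submodule.torsionBy ℤ (E'⁄Qb).Point p) :
    vcPointBC C h Qb Pt ∈ Submodule.torsionBy ℤ (E⁄Qb).Point p := by
  rw [Submodule.mem_torsionBy_iff] at hPt ⊢
  rw [← map_zsmul, hPt, _root_.map_zero]

theorem mref_vc_symm_mem {E E' : WeierstrassCurve ℚ} (C : VariableChange ℚ) (h : E' = C • E) {p : ℕ}
    {Pt : (E⁄Qb).Point} (hPt : Pt ∈ Submodule.torsionBy ℤ (E⁄Qb).Point p) :
    (vcPointBC C h Qb).symm Pt ∈ Submodule.torsionBy ℤ (E'⁄Qb).Point p := by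
  rw [Submodule.mem_torsionBy_iff] at hPt ⊢
  rw [← map_zsmul, hPt, _root_.map_zero]

/-- the pointwise stabiliser of `E[p]` does not depend on the model. -/
theorem mref_stab_eq {E E' : WeierstrassCurve ℚ} (C : VariableChange ℚ) (h : E' = C • E)
    (Av : ValuationSubring Qb) (ζ : Qb) (p : ℕ) :
    mreStab Av ζ (Submodule.torsionBy ℤ (E'⁄Qb).Point p) =
      mreStab Av ζ (Submodule.torsionBy ℤ (E⁄Qb).Point p) := by
  apply le_antisymm
  · intro g hg
    refine ⟨hg.1, hg.2.1, fun x => ?_⟩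
    have h1 := hg.2.2 ⟨(vcPointBC C h Qb).symm x.1, mref_vc_symm_mem C h x.2⟩
    have h2 : g • (vcPointBC C h Qb).symm x.1 = (vcPointBC C h Qb).symm x.1 :=
      congrArg Subtype.val h1
    apply Subtype.ext
    show g • x.1 = x.1
    have h3 := congrArg (vcPointBC C h Qb) h2
    rwa [vcPointBC_smul, AddEquiv.apply_symm_apply] at h3
  · intro g hg
    refine ⟨hg.1, hg.2.1, fun x => ?_⟩
    have h1 := hg.2.2 ⟨vcPointBC C h Qb x.1, mref_vc_mem C h x.2⟩
    have h2 : g • vcPointBC C h Qb x.1 = vcPointBC C h Qb x.1 := congrArg Subtype.val h1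
    apply Subtype.ext
    show g • x.1 = x.1
    have h3 := congrArg (vcPointBC C h Qb).symm h2
    rwa [vcPointBC_symm_smul, AddEquiv.symm_apply_apply] at h3

/-! ## the Frey curve -/

/-- **THE BLOCK OUTPUT** of `mre`, conditional on (e1) only: (P1) for the field cut out by `E[p]` over
`ℚ̄^{I₀}` at `p ∣ abc`. -/
theorem mref_P1_min (hS : MrefShapeMinSpec) (P : FreyPackage) : MreP1Spec P := by
  intro Av hA hdvd ζ hζ hζ1 σ hσ hσζ hmove
  obtain ⟨x, hx⟩ := hmove
  obtain ⟨A, B, C, u, d, hC, ha₂, ha₄, hAB, hu, hd, hd0⟩ := mremf_model P hdvd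
  have hpZ : Prime (P.p : ℤ) := Nat.prime_iff_prime_int.1 P.pp
  have hH : MresHyp A B P.p Av :=
    { pp := P.pp
      p2 := by have := P.hp5; omega
      lies := hA
      a₂ := ha₂
      a₄ := ha₄
      disc := by
        refine ⟨left_ne_zero_of_mul hAB, right_ne_zero_of_mul hAB, fun h0 => ha₂ ?_⟩
        have hB : B = -A := by linarith
        rw [hB] at ha₄ ⊢
        have h1 : (P.p : ℤ) ∣ A * A := by
          have := (dvd_neg).2 ha₄
          simpa using this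
        have h2 : (P.p : ℤ) ∣ A := (hpZ.dvd_or_dvd h1).elim id id
        have e : -A - A = A * (-2) := by ring
        rw [e]
        exact dvd_mul_of_dvd_left h2 _
      pow := ⟨u, d, hu, hd, hd0⟩ }
  have key := mref_legendre hS A B hH hζ hζ1 hσ hσζ
    ⟨⟨(vcPointBC C hC Qb).symm x.1, mref_vc_symm_mem C hC x.2⟩, fun h => hx (by
      have h2 : σ • (vcPointBC C hC Qb).symm x.1 = (vcPointBC C hC Qb).symm x.1 :=
        congrArg Subtype.val h
      apply Subtype.ext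
      show σ • x.1 = x.1
      have h3 := congrArg (vcPointBC C hC Qb) h2
      rwa [vcPointBC_smul, AddEquiv.apply_symm_apply] at h3)⟩
  rw [mref_stab_eq C hC] at key
  exact key

theorem mref_P1 (hS : MresShapeSpec) (P : FreyPackage) : MreP1Spec P :=
  mref_P1_min (mref_min_of_shape hS) P

end Fermat.Agent.MR
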