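import Mathlib
import Fermat.Agent.MR.Spec
import Fermat.Agent.MR.E.Tower

/-!
# PROGRAM MR, E-side : the SPLIT CASE input - the value group of `K₀ = ℚ̄^{I₀}` is `v(1 - ζ)^ℤ`

Owner: helper4.  Namespace `Fermat.Agent.MR`, prefix `mrep`.

`𝔸` a place of `ℚ̄` over `p`, `I` its inertia group, `I₀ = mraI0 p 𝔸 = {σ ∈ I | σ = id on μ_p}`,
`ζ` a primitive `p`-th root of unity.  Norm from `K₀` to `ℚ̄^I` over the transversal
`g_a = mretSel 𝔸 ζ a`, `a = 1, …, p - 1` (helper10's `mret_norm_fixed`, `mret_norm_val`), then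
`mreo_fixed` and `mret_val_zeta`.

* `mrep_I0_iff`        : `σ ∈ mraI0 p 𝔸 ↔ σ ∈ I ∧ σ ζ = ζ`;
* `mrep_split_ord`     : an `I₀`-fixed `y ≠ 0` has `v(y)^(p-1) = v(p)^n`, `n : ℤ`;
* **`mrep_split_vg`**  : an `I₀`-fixed `y ≠ 0` has `v(y) = v(1 - ζ)^n`, `n : ℤ`;
* `mrep_split_unif`    : the same in membership form (`hunif` of helper9's `mrg_vg₁_of_unif`);
* `mrep_split_fix`     : `1 - ζ` (and `ζ`) are `I₀`-fixed.
-/

set_option autoImplicit false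
set_option linter.style.haveILetI false
set_option linter.unusedSectionVars false
set_option linter.unusedVariables false

noncomputable section

namespace Fermat.Agent.MR

open Fermat.Agent.FF

local notation "Qb" => AlgebraicClosure ℚ
local notation "GQ" => (AlgebraicClosure ℚ ≃ₐ[ℚ] AlgebraicClosure ℚ)

variable {p : ℕ} {A : ValuationSubring Qb} {ζ : Qb}

/-- `I₀` is cut out by ONE primitive root. -/
theorem mrep_I0_iff (hp : p.Prime) (hζ : ζ ^ p = 1) (hζ1 : ζ ≠ 1) (σ : GQ) :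
    σ ∈ mraI0 p A ↔ σ ∈ A.inertiaSubgroupIn ℚ ∧ σ ζ = ζ := by
  constructor
  · rintro ⟨h1, h2⟩
    exact ⟨h1, h2 ζ hζ⟩
  · rintro ⟨h1, h2⟩
    refine ⟨h1, fun ζ' hζ' => ?_⟩
    have hprim := mret_isPrimitiveRoot hp hζ hζ1
    haveI : NeZero p := ⟨hp.ne_zero⟩
    obtain ⟨j, -, rfl⟩ := hprim.eq_pow_of_pow_eq_one hζ'
    rw [map_pow, h2]

/-- `ζ` and `1 - ζ` are `I₀`-fixed. -/
theorem mrep_split_fix_zeta (hζ : ζ ^ p = 1) : MraFix (mraI0 p A) ζ := fun σ hσ => hσ.2 ζ hζ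

theorem mrep_split_fix (hζ : ζ ^ p = 1) : MraFix (mraI0 p A) (1 - ζ) := fun σ hσ => by
  rw [map_sub, map_one, hσ.2 ζ hζ]

/-- the transversal `g_a`, `a = 1, …, p - 1`, of `I₀` in `I`. -/
def mrepTr (p : ℕ) (A : ValuationSubring Qb) (ζ : Qb) (i : Fin (p - 1)) : GQ :=
  mretSel A ζ (i.1 + 1)

theorem mrepTr_mem (i : Fin (p - 1)) : mrepTr p A ζ i ∈ A.inertiaSubgroupIn ℚ :=
  mretSel_mem A ζ _

theorem mrep_not_dvd_succ (hp : p.Prime) (a : Fin (p - 1)) : ¬ p ∣ a.1 + 1 := by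
  intro h
  have := Nat.le_of_dvd (Nat.succ_pos _) h
  have := a.2
  omega

theorem mrepTr_zeta (hp : p.Prime) (hA : A.LiesOverPrime p) (hζ : ζ ^ p = 1) (hζ1 : ζ ≠ 1)
    (i : Fin (p - 1)) : mrepTr p A ζ i ζ = ζ ^ (i.1 + 1) :=
  mretSel_zeta hp hA hζ hζ1 (mrep_not_dvd_succ hp i)

/-- (T2) : `g g_a ∈ g_{a'} I₀`. -/
theorem mrepTr_T2 (hp : p.Prime) (hA : A.LiesOverPrime p) (hζ : ζ ^ p = 1) (hζ1 : ζ ≠ 1) :
    ∀ g ∈ A.inertiaSubgroupIn ℚ, ∀ i, ∃ i', ∃ h ∈ mraI0 p A,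
      g * mrepTr p A ζ i = mrepTr p A ζ i' * h := by
  intro g hg i
  have hprim := mret_isPrimitiveRoot hp hζ hζ1
  haveI : NeZero p := ⟨hp.ne_zero⟩
  -- (g g_i) ζ is a primitive root ζ ^ a', 1 ≤ a' < p
  set ξ : Qb := (g * mrepTr p A ζ i) ζ with hξ
  have hξp : ξ ^ p = 1 := by rw [hξ, ← map_pow, hζ, map_one]
  have hξ1 : ξ ≠ 1 := by
    intro h
    apply hζ1
    have : (g * mrepTr p A ζ i) ζ = (g * mrepTr p A ζ i) 1 := by rw [map_one]; exact h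
    exact (g * mrepTr p A ζ i).injective this
  obtain ⟨a', ha1, hap, ha'⟩ := mret_eq_pow hp hζ hζ1 hξp hξ1
  have hi' : a' - 1 < p - 1 := by omega
  refine ⟨⟨a' - 1, hi'⟩, (mrepTr p A ζ ⟨a' - 1, hi'⟩)⁻¹ * (g * mrepTr p A ζ i), ?_, ?_⟩
  · rw [mrep_I0_iff hp hζ hζ1]
    refine ⟨mul_mem (inv_mem (mrepTr_mem _)) (mul_mem hg (mrepTr_mem _)), ?_⟩
    rw [AlgEquiv.mul_apply, ← hξ, ha']
    have h1 : mrepTr p A ζ ⟨a' - 1, hi'⟩ ζ = ζ ^ a' := by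
      rw [mrepTr_zeta hp hA hζ hζ1]
      congr 1
      show a' - 1 + 1 = a'
      omega
    rw [← h1, ← AlgEquiv.mul_apply, inv_mul_cancel, AlgEquiv.one_apply]
  · rw [mul_inv_cancel_left]

/-- (T3) : the `g_a` lie in distinct cosets of `I₀`. -/
theorem mrepTr_T3 (hp : p.Prime) (hA : A.LiesOverPrime p) (hζ : ζ ^ p = 1) (hζ1 : ζ ≠ 1) :
    ∀ i i', ∀ h ∈ mraI0 p A, mrepTr p A ζ i = mrepTr p A ζ i' * h → i = i' := by
  intro i i' h hh e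
  have hprim := mret_isPrimitiveRoot hp hζ hζ1
  have h1 : mrepTr p A ζ i ζ = mrepTr p A ζ i' ζ := by
    rw [e, AlgEquiv.mul_apply, hh.2 ζ hζ]
  rw [mrepTr_zeta hp hA hζ hζ1, mrepTr_zeta hp hA hζ hζ1] at h1
  have hi := i.2
  have hi' := i'.2
  have h2 := hprim.pow_inj (by omega : i.1 + 1 < p) (by omega : i'.1 + 1 < p) h1
  exact Fin.ext (by omega)

/-- an `I₀`-fixed `y ≠ 0` has `v(y)^(p-1) = v(p)^n`. -/
theorem mrep_split_ord (hp : p.Prime) (hA : A.LiesOverPrime p) (hζ : ζ ^ p = 1) (hζ1 : ζ ≠ 1)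
    {y : Qb} (hy : MraFix (mraI0 p A) y) (hy0 : y ≠ 0) :
    ∃ n : ℤ, A.valuation y ^ (p - 1) = A.valuation (p : Qb) ^ n := by
  have hfix := mret_norm_fixed (A.inertiaSubgroupIn ℚ) (mraI0 p A) (mrepTr p A ζ)
    (mrepTr_T2 hp hA hζ hζ1) (mrepTr_T3 hp hA hζ hζ1) (y := y) hy
  have hval := mret_norm_val (A := A) (mrepTr p A ζ) (fun i => mrepTr_mem i) y
  have hN0 : (∏ i, mrepTr p A ζ i y) ≠ 0 :=
    Finset.prod_ne_zero_iff.mpr fun i _ => by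
      intro h
      exact hy0 ((map_eq_zero_iff _ (mrepTr p A ζ i).injective).mp h)
  obtain ⟨n, hn⟩ := mreo_fixed A hp hA hN0 hfix
  refine ⟨n, ?_⟩
  rw [← hn, hval, Fintype.card_fin]

/-- **the value group of `K₀ = ℚ̄^{I₀}` is `v(1 - ζ)^ℤ`.** -/
theorem mrep_split_vg (hp : p.Prime) (hA : A.LiesOverPrime p) (hζ : ζ ^ p = 1) (hζ1 : ζ ≠ 1)
    {y : Qb} (hy : MraFix (mraI0 p A) y) (hy0 : y ≠ 0) :
    ∃ n : ℤ, A.valuation y = A.valuation (1 - ζ) ^ n := by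
  obtain ⟨n, hn⟩ := mrep_split_ord hp hA hζ hζ1 hy hy0
  refine ⟨n, ?_⟩
  have hp1 : p - 1 ≠ 0 := by have := hp.two_le; omega
  have h : A.valuation y ^ (p - 1) = (A.valuation (1 - ζ) ^ n) ^ (p - 1) := by
    rw [hn, ← mret_val_zeta (A := A) hp hζ hζ1, ← zpow_natCast, ← zpow_natCast, ← zpow_mul,
      ← zpow_mul, mul_comm]
  exact (pow_left_inj₀ zero_le' zero_le' hp1).mp h

/-- membership form : `y (1 - ζ)^(-n)` is a unit of `𝔸` (the `hunif` of `mrg_vg₁_of_unif`). -/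
theorem mrep_split_unif (hp : p.Prime) (hA : A.LiesOverPrime p) (hζ : ζ ^ p = 1) (hζ1 : ζ ≠ 1)
    (y : Qb) (hy : MraFix (mraI0 p A) y) (hy0 : y ≠ 0) :
    ∃ n : ℤ, y * (1 - ζ) ^ (-n) ∈ A ∧ (y * (1 - ζ) ^ (-n))⁻¹ ∈ A := by
  obtain ⟨n, hn⟩ := mrep_split_vg hp hA hζ hζ1 hy hy0
  have hπ : A.valuation (1 - ζ) ≠ 0 :=
    (A.valuation.ne_zero_iff).mpr (mret_one_sub_zeta_ne hζ1)
  have hv : A.valuation (y * (1 - ζ) ^ (-n)) = 1 := by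
    rw [map_mul, map_zpow₀, hn, ← zpow_add₀ hπ, add_neg_cancel, zpow_zero]
  refine ⟨n, (A.valuation_le_one_iff _).mp hv.le, (A.valuation_le_one_iff _).mp ?_⟩
  rw [map_inv₀, hv, inv_one]

end Fermat.Agent.MR
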